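import Mathlib
import Fermat.Agent.LT.T7.H37.ThinSpec
import Fermat.Agent.LT.T7.H91.ClassOne

/-!
# Row LT, tower T7, leaf T7.13i `HoroCoeffFC` (helper768), part 1: the lattice `e(𝓞_K)`

OFF-MAIN.  `K` imaginary quadratic with a square root `x` of `-3`, `ζ = (x - 1) / 2`,
`e : K →+* ℂ`.

* `exists_rat_coords768`: every element of `K` is `a + b ζ`, `a, b ∈ ℚ`;
* `exists_int_coords768`: every element of `𝓞 K` is `a + b ζ`, `a, b ∈ ℤ` (`K` is the third
  cyclotomic field; Mathlib `IsCyclotomicExtension.Rat.isIntegralClosure_adjoin_singleton`);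
* `tau768 e x w = 2 Im w / Im (e x)` (`= Tr (w / √-3)` on `e K`): `τ (e (a + b ζ)) = b`;
* `tau_int768`: `τ (e y) ∈ ℤ` for `y ∈ 𝓞 K`;
* `mem_lattice_of_tau768`: `τ u, τ (e ζ · u) ∈ ℤ` implies `u ∈ e (𝓞 K)` (self-duality of the
  lattice for the pairing `τ (u u')`);
* `integral_of_tau768`: `y ∈ K`, `τ (e y), τ (e (y ζ)) ∈ ℤ` implies `y ∈ 𝓞 K`.
-/

set_option autoImplicit false
set_option linter.unusedSectionVars false
set_option linter.style.haveILetI false

open IsDedekindDomain NumberField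

noncomputable section

namespace Fermat.Agent.LT.T7.H768

open Fermat.Agent.LT.T7 Fermat.Agent.LT.T7.H37

variable {K : Type} [Field K] [NumberField K]

/-- The cube root of unity attached to a square root `x` of `-3`. -/
def zeta768 (x : K) : K := (x - 1) / 2

theorem two_zeta768 (x : K) : 2 * zeta768 x + 1 = x := by
  unfold zeta768
  have h2 : (2 : K) ≠ 0 := two_ne_zero
  field_simp
  ring

theorem zeta_rel768 {x : K} (hx : x * x = -3) : zeta768 x ^ 2 + zeta768 x + 1 = 0 := by
  have h : (2 * zeta768 x + 1) * (2 * zeta768 x + 1) = -3 := by rw [two_zeta768]; exact hx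
  have h4 : (4 : K) * (zeta768 x ^ 2 + zeta768 x + 1) = 0 := by linear_combination h
  rcases mul_eq_zero.1 h4 with h | h
  · exact absurd h (by norm_num)
  · exact h

theorem zeta_sq768 {x : K} (hx : x * x = -3) : zeta768 x * zeta768 x = -1 - zeta768 x := by
  linear_combination zeta_rel768 hx

theorem zeta_cube768 {x : K} (hx : x * x = -3) : zeta768 x ^ 3 = 1 := by
  linear_combination (zeta768 x - 1) * zeta_rel768 hx

theorem isIntegral_zeta768 {x : K} (hx : x * x = -3) : IsIntegral ℤ (zeta768 x) := by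
  apply IsIntegral.of_pow (n := 3) (by norm_num)
  rw [zeta_cube768 hx]
  exact isIntegral_one

theorem isPrimitiveRoot_zeta768 {x : K} (hx : x * x = -3) : IsPrimitiveRoot (zeta768 x) 3 := by
  have hrel := zeta_rel768 hx
  have hne1 : zeta768 x ≠ 1 := by
    intro h1
    rw [h1] at hrel
    norm_num at hrel
  refine IsPrimitiveRoot.mk_of_lt (zeta768 x) (by norm_num) (zeta_cube768 hx) ?_
  intro l hl0 hl3 hl
  interval_cases l
  · exact hne1 (by simpa using hl)
  · have h5 : zeta768 x = -2 := by linear_combination hrel - hl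
    rw [h5] at hrel
    norm_num at hrel

theorem isCyclotomicExtension768 (h : IsImagQuad K) {x : K} (hx : x * x = -3) :
    IsCyclotomicExtension {3} ℚ K := by
  rw [IsCyclotomicExtension.iff_singleton]
  refine ⟨⟨zeta768 x, isPrimitiveRoot_zeta768 hx⟩, fun y => ?_⟩
  have htop := H91.adjoin_sqrt_eq_top91 h hx
  have hsub : Algebra.adjoin ℚ ({x} : Set K) ≤ Algebra.adjoin ℚ {b : K | b ^ 3 = 1} := by
    apply Algebra.adjoin_le
    intro z hz
    rw [Set.mem_singleton_iff] at hz
    rw [hz, ← two_zeta768 x]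
    have hζmem : zeta768 x ∈ Algebra.adjoin ℚ {b : K | b ^ 3 = 1} :=
      Algebra.subset_adjoin (by simpa using zeta_cube768 hx)
    exact Subalgebra.add_mem _ (Subalgebra.mul_mem _ (by
      have : (2 : K) = algebraMap ℚ K 2 := by simp
      rw [this]; exact Subalgebra.algebraMap_mem _ _) hζmem) (Subalgebra.one_mem _)
  rw [htop] at hsub
  exact hsub Algebra.mem_top

/-- Every element of `K` is `a + b ζ` with `a, b` rational. -/
theorem exists_rat_coords768 (h : IsImagQuad K) {x : K} (hx : x * x = -3) (y : K) :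
    ∃ a b : ℚ, y = algebraMap ℚ K a + algebraMap ℚ K b * zeta768 x := by
  have htop := H91.adjoin_sqrt_eq_top91 h hx
  have hy : y ∈ Algebra.adjoin ℚ ({x} : Set K) := by rw [htop]; exact Algebra.mem_top
  refine Algebra.adjoin_induction (p := fun y _ =>
    ∃ a b : ℚ, y = algebraMap ℚ K a + algebraMap ℚ K b * zeta768 x) ?_ ?_ ?_ ?_ hy
  · intro z hz
    rw [Set.mem_singleton_iff] at hz
    refine ⟨1, 2, ?_⟩
    rw [hz, map_one, map_ofNat]
    linear_combination -(two_zeta768 x)
  · intro r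
    exact ⟨r, 0, by simp⟩
  · rintro u v _ _ ⟨a, b, rfl⟩ ⟨a', b', rfl⟩
    refine ⟨a + a', b + b', ?_⟩
    rw [map_add, map_add]
    ring
  · rintro u v _ _ ⟨a, b, rfl⟩ ⟨a', b', rfl⟩
    refine ⟨a * a' - b * b', a * b' + b * a' - b * b', ?_⟩
    simp only [map_add, map_sub, map_mul]
    linear_combination (algebraMap ℚ K b * algebraMap ℚ K b') * zeta_sq768 hx

/-- Every element of `𝓞 K` is `a + b ζ` with `a, b` integers. -/
theorem exists_int_coords768 (h : IsImagQuad K) {x : K} (hx : x * x = -3) (y : 𝓞 K) :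
    ∃ a b : ℤ, (y : K) = (a : K) + (b : K) * zeta768 x := by
  haveI := isCyclotomicExtension768 h hx
  have hcl : IsIntegralClosure (Algebra.adjoin ℤ ({zeta768 x} : Set K)) ℤ K :=
    IsCyclotomicExtension.Rat.isIntegralClosure_adjoin_singleton (isPrimitiveRoot_zeta768 hx)
  obtain ⟨t, ht⟩ := (hcl.isIntegral_iff).mp (RingOfIntegers.isIntegral_coe y)
  have ht' : (t : K) = (y : K) := ht
  rw [← ht']
  have hmem : (t : K) ∈ Algebra.adjoin ℤ ({zeta768 x} : Set K) := t.2
  refine Algebra.adjoin_induction (p := fun y _ =>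
    ∃ a b : ℤ, y = (a : K) + (b : K) * zeta768 x) ?_ ?_ ?_ ?_ hmem
  · intro z hz
    rw [Set.mem_singleton_iff] at hz
    exact ⟨0, 1, by rw [hz]; simp⟩
  · intro r
    exact ⟨r, 0, by simp⟩
  · rintro u v _ _ ⟨a, b, rfl⟩ ⟨a', b', rfl⟩
    refine ⟨a + a', b + b', ?_⟩
    push_cast
    ring
  · rintro u v _ _ ⟨a, b, rfl⟩ ⟨a', b', rfl⟩
    refine ⟨a * a' - b * b', a * b' + b * a' - b * b', ?_⟩
    push_cast
    linear_combination ((b : K) * (b' : K)) * zeta_sq768 hx

/-! ## The embedding -/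

theorem emb_sqrt768 (e : K →+* ℂ) {x : K} (hx : x * x = -3) :
    (e x).re = 0 ∧ (e x).im * (e x).im = 3 := by
  have h : e x * e x = -3 := by rw [← map_mul, hx, map_neg, map_ofNat]
  have hre := congrArg Complex.re h
  have him := congrArg Complex.im h
  simp only [Complex.mul_re, Complex.mul_im, Complex.neg_re, Complex.neg_im] at hre him
  have h3re : (3 : ℂ).re = 3 := by norm_num
  have h3im : (3 : ℂ).im = 0 := by norm_num
  rw [h3re] at hre
  rw [h3im] at him
  have hprod : (e x).re * (e x).im = 0 := by linarith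
  rcases mul_eq_zero.mp hprod with h0 | h0
  · refine ⟨h0, ?_⟩
    rw [h0] at hre
    linarith
  · rw [h0] at hre
    nlinarith [mul_self_nonneg (e x).re]

theorem emb_sqrt_im_ne768 (e : K →+* ℂ) {x : K} (hx : x * x = -3) : (e x).im ≠ 0 := by
  intro h0
  have := (emb_sqrt768 e hx).2
  rw [h0] at this
  norm_num at this

theorem emb_zeta768 (e : K →+* ℂ) {x : K} (hx : x * x = -3) :
    (e (zeta768 x)).re = -1 / 2 ∧ (e (zeta768 x)).im = (e x).im / 2 := by
  have h : e (zeta768 x) = (e x - 1) / 2 := by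
    unfold zeta768
    rw [map_div₀, map_sub, map_one, map_ofNat]
  have hre := (emb_sqrt768 e hx).1
  constructor
  · rw [h]
    simp [hre]
  · rw [h]
    simp

/-- The real functional `τ w = 2 Im w / Im (e x)`. -/
def tau768 (e : K →+* ℂ) (x : K) (w : ℂ) : ℝ := 2 * w.im / (e x).im

theorem tau_add768 (e : K →+* ℂ) (x : K) (w w' : ℂ) :
    tau768 e x (w + w') = tau768 e x w + tau768 e x w' := by
  unfold tau768
  rw [Complex.add_im]
  ring

theorem tau_neg768 (e : K →+* ℂ) (x : K) (w : ℂ) : tau768 e x (-w) = -tau768 e x w := by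
  unfold tau768
  rw [Complex.neg_im]
  ring

theorem tau_zero768 (e : K →+* ℂ) (x : K) : tau768 e x 0 = 0 := by
  unfold tau768
  simp

theorem tau_real_mul768 (e : K →+* ℂ) (x : K) (r : ℝ) (w : ℂ) :
    tau768 e x ((r : ℂ) * w) = r * tau768 e x w := by
  unfold tau768
  rw [Complex.im_ofReal_mul]
  ring

theorem continuous_tau768 (e : K →+* ℂ) (x : K) : Continuous (tau768 e x) := by
  unfold tau768
  exact (continuous_const.mul Complex.continuous_im).div_const _

/-- `τ (e (a + b ζ)) = b`. -/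
theorem tau_coords768 (e : K →+* ℂ) {x : K} (hx : x * x = -3) (a b : ℚ) :
    tau768 e x (e (algebraMap ℚ K a + algebraMap ℚ K b * zeta768 x)) = b := by
  have hβ := emb_sqrt_im_ne768 e hx
  have hζ := emb_zeta768 e hx
  unfold tau768
  rw [map_add, map_mul, Complex.add_im, Complex.mul_im]
  have ha : e (algebraMap ℚ K a) = ((a : ℝ) : ℂ) := by
    rw [eq_ratCast, map_ratCast]; simp
  have hb : e (algebraMap ℚ K b) = ((b : ℝ) : ℂ) := by
    rw [eq_ratCast, map_ratCast]; simp
  rw [ha, hb, Complex.ofReal_im, Complex.ofReal_re, Complex.ofReal_im, hζ.2]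
  field_simp
  ring

/-- `τ (e y) ∈ ℤ` for `y ∈ 𝓞 K`. -/
theorem tau_int768 (h : IsImagQuad K) (e : K →+* ℂ) {x : K} (hx : x * x = -3) (y : 𝓞 K) :
    ∃ n : ℤ, tau768 e x (e (y : K)) = n := by
  obtain ⟨a, b, hab⟩ := exists_int_coords768 h hx y
  refine ⟨b, ?_⟩
  have := tau_coords768 e hx (a : ℚ) (b : ℚ)
  rw [hab]
  have h1 : (algebraMap ℚ K (a : ℚ)) = (a : K) := by simp
  have h2 : (algebraMap ℚ K (b : ℚ)) = (b : K) := by simp
  rw [h1, h2] at this
  rw [this]
  simp

/-- `ζ` as an algebraic integer. -/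
def zetaInt768 {x : K} (hx : x * x = -3) : 𝓞 K := ⟨zeta768 x, isIntegral_zeta768 hx⟩

theorem coe_zetaInt768 {x : K} (hx : x * x = -3) : ((zetaInt768 hx : 𝓞 K) : K) = zeta768 x := rfl

/-- The algebraic integer `a + b ζ`. -/
def latInt768 {x : K} (hx : x * x = -3) (a b : ℤ) : 𝓞 K := (a : 𝓞 K) + (b : 𝓞 K) * zetaInt768 hx

theorem coe_latInt768 {x : K} (hx : x * x = -3) (a b : ℤ) :
    ((latInt768 hx a b : 𝓞 K) : K) = (a : K) + (b : K) * zeta768 x := by
  unfold latInt768
  have h1 : ((zetaInt768 hx : 𝓞 K) : K) = zeta768 x := rfl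
  have h2 : (((a : 𝓞 K) + (b : 𝓞 K) * zetaInt768 hx : 𝓞 K) : K)
      = ((a : 𝓞 K) : K) + ((b : 𝓞 K) : K) * ((zetaInt768 hx : 𝓞 K) : K) := by
    push_cast
    rfl
  rw [h2, h1]
  simp

theorem emb_latInt768 (e : K →+* ℂ) {x : K} (hx : x * x = -3) (a b : ℤ) :
    e ((latInt768 hx a b : 𝓞 K) : K) = (a : ℂ) + (b : ℂ) * e (zeta768 x) := by
  rw [coe_latInt768, map_add, map_mul, map_intCast, map_intCast]

/-- Self-duality of the lattice `e (𝓞 K)` for the pairing `τ (u u')`. -/
theorem mem_lattice_of_tau768 (e : K →+* ℂ) {x : K} (hx : x * x = -3) (u : ℂ) (n m : ℤ)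
    (h1 : tau768 e x u = n) (h2 : tau768 e x (e (zeta768 x) * u) = m) :
    e ((latInt768 hx (m + n) n : 𝓞 K) : K) = u := by
  have hβ := emb_sqrt_im_ne768 e hx
  have hζ := emb_zeta768 e hx
  unfold tau768 at h1 h2
  rw [Complex.mul_im, hζ.1, hζ.2] at h2
  have him : u.im = n * (e x).im / 2 := by
    field_simp at h1
    linarith
  have hre : u.re = m + n / 2 := by
    rw [him] at h2
    field_simp at h2
    linarith
  rw [emb_latInt768]
  apply Complex.ext
  · simp only [Complex.add_re, Complex.mul_re, Complex.intCast_re, Complex.intCast_im, hζ.1, hζ.2]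
    rw [hre]
    push_cast
    ring
  · simp only [Complex.add_im, Complex.mul_im, Complex.intCast_re, Complex.intCast_im, hζ.1, hζ.2]
    rw [him]
    ring

/-- An element `y` of `K` with `τ (e y), τ (e (y ζ)) ∈ ℤ` is an algebraic integer. -/
theorem integral_of_tau768 (h : IsImagQuad K) (e : K →+* ℂ) {x : K} (hx : x * x = -3) (y : K)
    (n m : ℤ) (h1 : tau768 e x (e y) = n) (h2 : tau768 e x (e (y * zeta768 x)) = m) :
    ((latInt768 hx (m + n) n : 𝓞 K) : K) = y := by
  obtain ⟨a, b, hab⟩ := exists_rat_coords768 h hx y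
  have e1 : tau768 e x (e y) = b := by rw [hab]; exact tau_coords768 e hx a b
  have hyz : y * zeta768 x
      = algebraMap ℚ K (-b) + algebraMap ℚ K (a - b) * zeta768 x := by
    rw [hab, map_neg, map_sub]
    linear_combination (algebraMap ℚ K b) * zeta_sq768 hx
  have e2 : tau768 e x (e (y * zeta768 x)) = ((a - b : ℚ) : ℝ) := by
    rw [hyz]; exact tau_coords768 e hx (-b) (a - b)
  rw [e1] at h1
  rw [e2] at h2
  have hb : b = (n : ℚ) := by exact_mod_cast h1
  have ha : a = (m : ℚ) + n := by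
    have : (a - b : ℚ) = (m : ℚ) := by exact_mod_cast h2
    rw [hb] at this
    linarith
  rw [coe_latInt768, hab, ha, hb]
  push_cast
  simp

theorem emb_ne_zero768 (e : K →+* ℂ) {y : K} (hy : y ≠ 0) : e y ≠ 0 := by
  intro h0
  exact hy (e.injective (by rw [h0, map_zero]))

end Fermat.Agent.LT.T7.H768

end
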