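import Mathlib

/-!
# Row LT, tower T7, leaf T7.13i `HoroCoeffFC` (helper768), part 2: Fourier analysis on a compact
abelian group

OFF-MAIN.  `G` a compact abelian topological group with its Borel structure, `μ` a Haar
probability measure, `ψ ν` (`ν ∈ Γ`) a family of unitary characters which is closed under
products and conjugation, separates the points and has `ψ ν ≠ 1` for `ν ≠ 0`.

* `orthonormal_char768`: the characters are orthonormal in `L²(μ)`;
* `bessel768`: Bessel's inequality for a continuous function bounded by `B`;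
* `complete768`: a continuous function all of whose coefficients vanish is zero
  (Stone--Weierstrass);
* `const_of_coef768`: a continuous function whose coefficients of non-zero index vanish is
  constant.
-/

set_option autoImplicit false
set_option linter.unusedSectionVars false
set_option linter.style.haveILetI false

open MeasureTheory
open scoped ComplexConjugate InnerProductSpace

noncomputable section

namespace Fermat.Agent.LT.T7.H768

section Abstract

variable {G : Type*} [AddCommGroup G] [TopologicalSpace G] [IsTopologicalAddGroup G]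
  [CompactSpace G] [MeasurableSpace G] [BorelSpace G]

/-- A family of unitary characters of `G`, indexed by an abelian group `Γ`, closed under products
and conjugation, separating the points, with `ψ ν ≠ 1` for `ν ≠ 0`. -/
structure IsCharFam768 {Γ : Type*} [AddCommGroup Γ] (ψ : Γ → G → ℂ) : Prop where
  cont : ∀ ν, Continuous (ψ ν)
  mul : ∀ ν a b, ψ ν (a + b) = ψ ν a * ψ ν b
  one : ∀ a, ψ 0 a = 1
  add : ∀ ν ν' a, ψ (ν + ν') a = ψ ν a * ψ ν' a
  neg : ∀ ν a, ψ (-ν) a = (starRingEnd ℂ) (ψ ν a)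
  nontriv : ∀ ν, ν ≠ 0 → ∃ a, ψ ν a ≠ 1
  sep : ∀ a b, a ≠ b → ∃ ν, ψ ν a ≠ ψ ν b

variable {Γ : Type*} [AddCommGroup Γ] {ψ : Γ → G → ℂ} (hψ : IsCharFam768 ψ)
  (μ : Measure G) [μ.IsAddHaarMeasure] [IsProbabilityMeasure μ]

include hψ

/-- The character as a continuous map. -/
def charC768 (ν : Γ) : C(G, ℂ) := ⟨ψ ν, hψ.cont ν⟩

@[simp] theorem charC768_apply (ν : Γ) (a : G) : charC768 hψ ν a = ψ ν a := rfl

theorem integral_char_zero768 : ∫ a, ψ 0 a ∂μ = 1 := by
  simp_rw [hψ.one]
  simp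

theorem integral_char_ne768 {ν : Γ} (hν : ν ≠ 0) : ∫ a, ψ ν a ∂μ = 0 := by
  obtain ⟨t, ht⟩ := hψ.nontriv ν hν
  have h1 : ∫ a, ψ ν (a + t) ∂μ = ∫ a, ψ ν a ∂μ := integral_add_right_eq_self _ t
  simp_rw [hψ.mul] at h1
  rw [integral_mul_const] at h1
  have h2 : (∫ a, ψ ν a ∂μ) * (ψ ν t - 1) = 0 := by linear_combination h1
  rcases mul_eq_zero.1 h2 with h | h
  · exact h
  · exact absurd (sub_eq_zero.1 h) ht

theorem orthonormal_char768 :
    Orthonormal ℂ (fun ν : Γ => ContinuousMap.toLp (E := ℂ) 2 μ ℂ (charC768 hψ ν)) := by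
  classical
  rw [orthonormal_iff_ite]
  intro i j
  rw [ContinuousMap.inner_toLp]
  have h : ∀ x, (charC768 hψ j) x * conj ((charC768 hψ i) x) = ψ (j + -i) x := fun x => by
    rw [hψ.add, hψ.neg]
    rfl
  simp_rw [h]
  split_ifs with hij
  · subst hij
    rw [add_neg_cancel]
    exact integral_char_zero768 hψ μ
  · refine integral_char_ne768 hψ μ ?_
    intro h0
    apply hij
    rw [← sub_eq_add_neg, sub_eq_zero] at h0
    exact h0.symm

omit hψ in
/-- The Fourier coefficient of `f` at the character `ψ ν`. -/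
def coef768 (μ : Measure G) (ψ : Γ → G → ℂ) (f : G → ℂ) (ν : Γ) : ℂ :=
  ∫ a, f a * conj (ψ ν a) ∂μ

theorem coef_eq_inner768 (f : C(G, ℂ)) (ν : Γ) :
    coef768 μ ψ f ν
      = ⟪ContinuousMap.toLp (E := ℂ) 2 μ ℂ (charC768 hψ ν),
          ContinuousMap.toLp (E := ℂ) 2 μ ℂ f⟫_ℂ := by
  rw [ContinuousMap.inner_toLp]
  rfl

theorem norm_toLp_le768 (f : C(G, ℂ)) {B : ℝ} (hB : ∀ a, ‖f a‖ ≤ B) :
    ‖ContinuousMap.toLp (E := ℂ) 2 μ ℂ f‖ ≤ B := by
  have hB0 : 0 ≤ B := (norm_nonneg _).trans (hB 0)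
  have h := Lp.norm_le_of_ae_bound (μ := μ) (p := 2)
    (f := ContinuousMap.toLp (E := ℂ) 2 μ ℂ f) hB0 (by
      filter_upwards [ContinuousMap.coeFn_toLp (p := 2) (𝕜 := ℂ) μ f] with x hx
      rw [hx]
      exact hB x)
  simpa [measureUnivNNReal] using h

/-- **Bessel's inequality.** -/
theorem bessel768 (f : C(G, ℂ)) {B : ℝ} (hB : ∀ a, ‖f a‖ ≤ B) (F : Finset Γ) :
    ∑ ν ∈ F, ‖coef768 μ ψ f ν‖ ^ 2 ≤ B ^ 2 := by
  have h1 := Orthonormal.sum_inner_products_le (ContinuousMap.toLp (E := ℂ) 2 μ ℂ f)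
    (orthonormal_char768 hψ μ) (s := F)
  have h2 := norm_toLp_le768 hψ μ f hB
  have h3 : ‖ContinuousMap.toLp (E := ℂ) 2 μ ℂ f‖ ^ 2 ≤ B ^ 2 :=
    pow_le_pow_left₀ (norm_nonneg _) h2 2
  refine le_trans (le_of_eq ?_) (h1.trans h3)
  refine Finset.sum_congr rfl fun ν _ => ?_
  rw [coef_eq_inner768 hψ μ f ν]

/-! ### Completeness -/

/-- The span of the characters. -/
def charSpan768 : Submodule ℂ C(G, ℂ) := Submodule.span ℂ (Set.range (charC768 hψ))

theorem charC768_zero : charC768 hψ 0 = 1 := by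
  ext a
  simp [hψ.one]

theorem charC768_add (ν ν' : Γ) : charC768 hψ (ν + ν') = charC768 hψ ν * charC768 hψ ν' := by
  ext a
  simp [hψ.add]

theorem charC768_neg (ν : Γ) : charC768 hψ (-ν) = star (charC768 hψ ν) := by
  ext a
  simp [hψ.neg]

theorem one_mem_charSpan768 : (1 : C(G, ℂ)) ∈ charSpan768 hψ :=
  Submodule.subset_span ⟨0, charC768_zero hψ⟩

theorem mul_mem_charSpan768 (x y : C(G, ℂ)) (hx : x ∈ charSpan768 hψ)
    (hy : y ∈ charSpan768 hψ) : x * y ∈ charSpan768 hψ := by
  have h1 : x * y ∈ charSpan768 hψ * charSpan768 hψ := Submodule.mul_mem_mul hx hy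
  have h2 : charSpan768 hψ * charSpan768 hψ ≤ charSpan768 hψ := by
    unfold charSpan768
    rw [Submodule.span_mul_span]
    apply Submodule.span_mono
    rintro _ ⟨_, ⟨η, rfl⟩, _, ⟨η', rfl⟩, rfl⟩
    exact ⟨η + η', charC768_add hψ η η'⟩
  exact h2 h1

theorem star_mem_charSpan768 (x : C(G, ℂ)) (hx : x ∈ charSpan768 hψ) :
    star x ∈ charSpan768 hψ := by
  unfold charSpan768 at hx ⊢
  induction hx using Submodule.span_induction with
  | mem x hx =>
    obtain ⟨η, rfl⟩ := hx
    exact Submodule.subset_span ⟨-η, charC768_neg hψ η⟩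
  | zero => simp
  | add x y _ _ hx hy => rw [star_add]; exact Submodule.add_mem _ hx hy
  | smul a x _ hx => rw [star_smul]; exact Submodule.smul_mem _ _ hx

/-- The star subalgebra of trigonometric polynomials. -/
def charAlg768 : StarSubalgebra ℂ C(G, ℂ) where
  toSubalgebra := (charSpan768 hψ).toSubalgebra (one_mem_charSpan768 hψ) (mul_mem_charSpan768 hψ)
  star_mem' := fun {a} ha => star_mem_charSpan768 hψ a ha

theorem mem_charAlg768 (g : C(G, ℂ)) : g ∈ charAlg768 hψ ↔ g ∈ charSpan768 hψ := Iff.rfl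

theorem charAlg768_separates : (charAlg768 hψ).SeparatesPoints := by
  intro a b hne
  obtain ⟨ν, hν⟩ := hψ.sep a b hne
  exact ⟨charC768 hψ ν, ⟨charC768 hψ ν, Submodule.subset_span ⟨ν, rfl⟩, rfl⟩, hν⟩

/-- **Completeness**: a continuous function all of whose Fourier coefficients vanish is zero. -/
theorem complete768 (f : C(G, ℂ)) (h : ∀ ν, coef768 μ ψ f ν = 0) : f = 0 := by
  set Λ : C(G, ℂ) →L[ℂ] ℂ :=
    (innerSL ℂ (ContinuousMap.toLp (E := ℂ) 2 μ ℂ (star f))).comp
      (ContinuousMap.toLp (E := ℂ) 2 μ ℂ) with hΛ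
  have hΛapp : ∀ g : C(G, ℂ), Λ g = ∫ x, g x * f x ∂μ := by
    intro g
    show ⟪ContinuousMap.toLp (E := ℂ) 2 μ ℂ (star f), ContinuousMap.toLp (E := ℂ) 2 μ ℂ g⟫_ℂ = _
    rw [ContinuousMap.inner_toLp]
    refine integral_congr_ae (Filter.Eventually.of_forall fun x => ?_)
    simp
  have hspan : charSpan768 hψ ≤ LinearMap.ker Λ.toLinearMap := by
    unfold charSpan768
    rw [Submodule.span_le]
    rintro _ ⟨ν, rfl⟩
    show Λ (charC768 hψ ν) = 0
    rw [hΛapp, ← h (-ν)]
    unfold coef768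
    refine integral_congr_ae (Filter.Eventually.of_forall fun x => ?_)
    show ψ ν x * f x = f x * conj (ψ (-ν) x)
    rw [hψ.neg, Complex.conj_conj, mul_comm]
  have hsub : ((charAlg768 hψ : StarSubalgebra ℂ C(G, ℂ)) : Set C(G, ℂ))
      ⊆ (LinearMap.ker Λ.toLinearMap : Set C(G, ℂ)) :=
    fun a ha => hspan ((mem_charAlg768 hψ a).mp ha)
  have hclosed : IsClosed (LinearMap.ker Λ.toLinearMap : Set C(G, ℂ)) :=
    ContinuousLinearMap.isClosed_ker _
  have hdense := ContinuousMap.starSubalgebra_topologicalClosure_eq_top_of_separatesPoints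
    (charAlg768 hψ) (charAlg768_separates hψ)
  have hall : ∀ g : C(G, ℂ), Λ g = 0 := by
    intro g
    have hg : g ∈ (charAlg768 hψ).topologicalClosure := by rw [hdense]; trivial
    have hg' : g ∈ closure ((charAlg768 hψ : StarSubalgebra ℂ C(G, ℂ)) : Set C(G, ℂ)) := by
      rw [← StarSubalgebra.topologicalClosure_coe]; exact hg
    exact closure_minimal hsub hclosed hg'
  have h0 : ⟪ContinuousMap.toLp (E := ℂ) 2 μ ℂ (star f),
      ContinuousMap.toLp (E := ℂ) 2 μ ℂ (star f)⟫_ℂ = 0 := hall (star f)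
  have h1 : ContinuousMap.toLp (E := ℂ) 2 μ ℂ (star f) = 0 := inner_self_eq_zero.mp h0
  have h2 : star f = 0 := by
    apply ContinuousMap.toLp_injective (p := 2) (𝕜 := ℂ) μ
    rw [h1, map_zero]
  have h3 : star (star f) = star 0 := by rw [h2]
  simpa using h3

theorem coef_one768 [DecidableEq Γ] (ν : Γ) :
    coef768 μ ψ (fun _ => (1 : ℂ)) ν = if ν = 0 then 1 else 0 := by
  unfold coef768
  have h : ∀ a, (1 : ℂ) * conj (ψ ν a) = ψ (-ν) a := fun a => by rw [hψ.neg, one_mul]
  simp_rw [h]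
  split_ifs with h0
  · subst h0
    rw [neg_zero]
    exact integral_char_zero768 hψ μ
  · exact integral_char_ne768 hψ μ (neg_ne_zero.mpr h0)

theorem integrable_mul_conj768 (f : C(G, ℂ)) (ν : Γ) :
    Integrable (fun a => f a * conj (ψ ν a)) μ := by
  have hc : Continuous (fun a => f a * conj (ψ ν a)) :=
    f.continuous.mul (Complex.continuous_conj.comp (hψ.cont ν))
  exact hc.integrable_of_hasCompactSupport (HasCompactSupport.of_compactSpace _)

/-- A continuous function whose Fourier coefficients of non-zero index vanish is constant. -/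
theorem const_of_coef768 (f : C(G, ℂ)) (h : ∀ ν, ν ≠ 0 → coef768 μ ψ f ν = 0) (a b : G) :
    f a = f b := by
  classical
  set c : ℂ := coef768 μ ψ f 0 with hc
  set g : C(G, ℂ) := f - ContinuousMap.const G c with hg
  have hcoef : ∀ ν, coef768 μ ψ g ν = 0 := by
    intro ν
    have e1 : coef768 μ ψ g ν = coef768 μ ψ f ν - c * coef768 μ ψ (fun _ => (1 : ℂ)) ν := by
      unfold coef768
      rw [← integral_const_mul, ← integral_sub (integrable_mul_conj768 hψ μ f ν)]
      · refine integral_congr_ae (Filter.Eventually.of_forall fun x => ?_)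
        simp only [hg, ContinuousMap.sub_apply, ContinuousMap.const_apply]
        ring
      · exact ((integrable_mul_conj768 hψ μ (1 : C(G, ℂ)) ν).const_mul c)
    rw [e1, coef_one768 hψ μ]
    split_ifs with h0
    · subst h0
      rw [mul_one, sub_self]
    · rw [h ν h0, mul_zero, sub_zero]
  have hg0 := complete768 hψ μ g hcoef
  have ha : g a = 0 := by rw [hg0]; rfl
  have hb : g b = 0 := by rw [hg0]; rfl
  simp only [hg, ContinuousMap.sub_apply, ContinuousMap.const_apply] at ha hb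
  rw [sub_eq_zero.mp ha, sub_eq_zero.mp hb]

end Abstract

end Fermat.Agent.LT.T7.H768

end
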