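import Mathlib
import Fermat.Agent.LT.T7.H768.QuadInt
import Fermat.Agent.LT.T7.H768.Torus

/-!
# Row LT, tower T7, leaf T7.13i `HoroCoeffFC` (helper768), part 3: the torus `ℂ / M e(𝓞_K)`

OFF-MAIN.  `K = ℚ(√-3)`, `e : K →+* ℂ`, `Λ = M e(𝓞_K)`, `Q = ℂ / Λ`.

* `isClosed_lam768`, `compactSpace_Q768`: `Λ` is closed, `Q` is compact;
* `chi768 e x M ν u = exp (2 π i τ (e ν · u) / M)`: the characters of `Q`;
* `isCharFam_psi768`: they form a family of characters in the sense of `Torus.lean`;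
* `integral_translate768`, `integral_scale768`: invariance of the Haar integral under the
  translations and under `u ↦ e ϖ · u`, `ϖ ≠ 0`.
-/

set_option autoImplicit false
set_option linter.unusedSectionVars false
set_option linter.style.haveILetI false

open IsDedekindDomain NumberField MeasureTheory
open scoped ComplexConjugate

noncomputable section

namespace Fermat.Agent.LT.T7.H768

open Fermat.Agent.LT.T7 Fermat.Agent.LT.T7.H37

variable {K : Type} [Field K] [NumberField K]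

/-! ### The exponential -/

/-- `exp (2 π i r)`. -/
def cis768 (r : ℝ) : ℂ := Complex.exp (2 * Real.pi * Complex.I * (r : ℂ))

theorem cis_add768 (r s : ℝ) : cis768 (r + s) = cis768 r * cis768 s := by
  unfold cis768
  rw [← Complex.exp_add]
  congr 1
  push_cast
  ring

theorem cis_zero768 : cis768 0 = 1 := by simp [cis768]

theorem cis_neg768 (r : ℝ) : cis768 (-r) = conj (cis768 r) := by
  unfold cis768
  rw [← Complex.exp_conj]
  congr 1
  simp only [map_mul, Complex.conj_ofReal, Complex.conj_I, map_ofNat, Complex.ofReal_neg]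
  ring

theorem cis_eq_one_iff768 (r : ℝ) : cis768 r = 1 ↔ ∃ n : ℤ, r = n := by
  unfold cis768
  rw [Complex.exp_eq_one_iff]
  constructor
  · rintro ⟨n, hn⟩
    refine ⟨n, ?_⟩
    have h2 : (2 * Real.pi * Complex.I : ℂ) ≠ 0 := by
      simp [Real.pi_ne_zero]
    have h3 : (r : ℂ) = n := by
      apply mul_left_cancel₀ h2
      rw [hn]
      ring
    exact_mod_cast h3
  · rintro ⟨n, rfl⟩
    exact ⟨n, by push_cast; ring⟩

theorem cis_int768 (n : ℤ) : cis768 n = 1 := (cis_eq_one_iff768 _).2 ⟨n, rfl⟩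

theorem continuous_cis768 : Continuous cis768 := by
  unfold cis768
  fun_prop

/-! ### The lattice -/

/-- The lattice `M e(𝓞 K)`. -/
def lam768 (e : K →+* ℂ) (M : ℕ) : AddSubgroup ℂ where
  carrier := {u | ∃ l : 𝓞 K, (M : ℂ) * e (l : K) = u}
  zero_mem' := ⟨0, by simp⟩
  add_mem' := by
    rintro _ _ ⟨l, rfl⟩ ⟨l', rfl⟩
    refine ⟨l + l', ?_⟩
    have : ((l + l' : 𝓞 K) : K) = (l : K) + (l' : K) := by push_cast; rfl
    rw [this, map_add]
    ring
  neg_mem' := by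
    rintro _ ⟨l, rfl⟩
    refine ⟨-l, ?_⟩
    have : ((-l : 𝓞 K) : K) = -(l : K) := by push_cast; rfl
    rw [this, map_neg]
    ring

theorem mem_lam768 {e : K →+* ℂ} {M : ℕ} {u : ℂ} :
    u ∈ lam768 e M ↔ ∃ l : 𝓞 K, (M : ℂ) * e (l : K) = u := Iff.rfl

/-- The torus `ℂ / M e(𝓞 K)`. -/
abbrev Q768 (e : K →+* ℂ) (M : ℕ) : Type := ℂ ⧸ lam768 e M

theorem natCast_ne_zero768 {M : ℕ} (hM : 0 < M) : (M : ℂ) ≠ 0 :=
  Nat.cast_ne_zero.mpr hM.ne'

theorem coe_mul768 (a b : 𝓞 K) : ((a * b : 𝓞 K) : K) = (a : K) * (b : K) := by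
  push_cast
  rfl

theorem coe_add768 (a b : 𝓞 K) : ((a + b : 𝓞 K) : K) = (a : K) + (b : K) := by
  push_cast
  rfl

theorem coe_neg768 (a : 𝓞 K) : ((-a : 𝓞 K) : K) = -(a : K) := by
  push_cast
  rfl

theorem coe_zero768 : ((0 : 𝓞 K) : K) = 0 := by
  push_cast
  rfl

theorem coe_one768 : ((1 : 𝓞 K) : K) = 1 := by
  push_cast
  rfl

theorem lam_eq768 (h : IsImagQuad K) (e : K →+* ℂ) {x : K} (hx : x * x = -3) {M : ℕ}
    (hM : 0 < M) :
    (lam768 e M : Set ℂ)
      = (fun u : ℂ => tau768 e x (u / M)) ⁻¹' (Set.range ((↑) : ℤ → ℝ))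
        ∩ (fun u : ℂ => tau768 e x (e (zeta768 x) * (u / M))) ⁻¹' (Set.range ((↑) : ℤ → ℝ)) := by
  have hM0 := natCast_ne_zero768 hM
  ext u
  constructor
  · rintro ⟨l, rfl⟩
    have h1 : (M : ℂ) * e (l : K) / M = e (l : K) := by field_simp
    refine ⟨?_, ?_⟩
    · obtain ⟨n, hn⟩ := tau_int768 h e hx l
      exact ⟨n, by simp only [h1]; exact hn.symm⟩
    · obtain ⟨n, hn⟩ := tau_int768 h e hx (zetaInt768 hx * l)
      refine ⟨n, ?_⟩
      simp only [h1]
      rw [← hn, coe_mul768, map_mul]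
      rfl
  · rintro ⟨⟨n, hn⟩, ⟨m, hm⟩⟩
    have := mem_lattice_of_tau768 e hx (u / M) n m hn.symm hm.symm
    refine ⟨latInt768 hx (m + n) n, ?_⟩
    rw [this]
    field_simp

theorem isClosed_lam768 (h : IsImagQuad K) (e : K →+* ℂ) {x : K} (hx : x * x = -3) {M : ℕ}
    (hM : 0 < M) : IsClosed (lam768 e M : Set ℂ) := by
  rw [lam_eq768 h e hx hM]
  have hZ : IsClosed (Set.range ((↑) : ℤ → ℝ)) := Int.isClosedEmbedding_coe_real.isClosed_range
  refine (hZ.preimage ?_).inter (hZ.preimage ?_)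
  · exact (continuous_tau768 e x).comp (continuous_id.div_const _)
  · exact (continuous_tau768 e x).comp (continuous_const.mul (continuous_id.div_const _))

theorem exists_near768 (e : K →+* ℂ) {x : K} (hx : x * x = -3) {M : ℕ} (hM : 0 < M) (u : ℂ) :
    ∃ l : 𝓞 K, ‖u - (M : ℂ) * e (l : K)‖ ≤ M * (1 + ‖e (zeta768 x)‖) := by
  have hM0 := natCast_ne_zero768 hM
  have hβ := emb_sqrt_im_ne768 e hx
  have hζ := emb_zeta768 e hx
  set w : ℂ := u / M with hw
  set b : ℝ := tau768 e x w with hb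
  set a : ℝ := w.re + b / 2 with ha
  have hwab : w = (a : ℂ) + (b : ℂ) * e (zeta768 x) := by
    apply Complex.ext
    · simp only [Complex.add_re, Complex.mul_re, Complex.ofReal_re, Complex.ofReal_im, hζ.1]
      rw [ha]
      ring
    · simp only [Complex.add_im, Complex.mul_im, Complex.ofReal_re, Complex.ofReal_im, hζ.2]
      rw [hb]
      unfold tau768
      field_simp
      ring
  refine ⟨latInt768 hx ⌊a⌋ ⌊b⌋, ?_⟩
  have hu : u = (M : ℂ) * w := by rw [hw]; field_simp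
  have e1 : u - (M : ℂ) * e ((latInt768 hx ⌊a⌋ ⌊b⌋ : 𝓞 K) : K)
      = (M : ℂ) * (((Int.fract a : ℝ) : ℂ) + ((Int.fract b : ℝ) : ℂ) * e (zeta768 x)) := by
    rw [emb_latInt768, hu, hwab]
    have h1 : ((Int.fract a : ℝ) : ℂ) = (a : ℂ) - ((⌊a⌋ : ℤ) : ℂ) := by
      rw [Int.fract]; push_cast; ring
    have h2 : ((Int.fract b : ℝ) : ℂ) = (b : ℂ) - ((⌊b⌋ : ℤ) : ℂ) := by
      rw [Int.fract]; push_cast; ring
    rw [h1, h2]
    ring
  rw [e1, norm_mul, Complex.norm_natCast]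
  refine mul_le_mul_of_nonneg_left ?_ (Nat.cast_nonneg _)
  refine (norm_add_le _ _).trans ?_
  rw [norm_mul, Complex.norm_real, Complex.norm_real, Real.norm_of_nonneg (Int.fract_nonneg a),
    Real.norm_of_nonneg (Int.fract_nonneg b)]
  have h3 := (Int.fract_lt_one a).le
  have h4 := (Int.fract_lt_one b).le
  have h5 := norm_nonneg (e (zeta768 x))
  nlinarith

theorem compactSpace_Q768 (e : K →+* ℂ) {x : K} (hx : x * x = -3) {M : ℕ} (hM : 0 < M) :
    CompactSpace (Q768 e M) := by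
  refine ⟨?_⟩
  have h : (Set.univ : Set (Q768 e M))
      = (QuotientAddGroup.mk : ℂ → Q768 e M) ''
          Metric.closedBall (0 : ℂ) (M * (1 + ‖e (zeta768 x)‖)) := by
    ext q
    simp only [Set.mem_univ, true_iff]
    obtain ⟨u, rfl⟩ := QuotientAddGroup.mk_surjective q
    obtain ⟨l, hl⟩ := exists_near768 e hx hM u
    refine ⟨u - (M : ℂ) * e (l : K), ?_, ?_⟩
    · rw [Metric.mem_closedBall, dist_zero_right]
      exact hl
    · rw [QuotientAddGroup.eq]
      refine mem_lam768.mpr ⟨l, ?_⟩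
      ring
  rw [h]
  exact (isCompact_closedBall _ _).image QuotientAddGroup.continuous_mk

/-! ### The characters -/

/-- The character `u ↦ exp (2 π i τ (e ν · u) / M)`. -/
def chi768 (e : K →+* ℂ) (x : K) (M : ℕ) (ν : 𝓞 K) (u : ℂ) : ℂ :=
  cis768 (tau768 e x (e (ν : K) * u) / M)

theorem chi_mul768 (e : K →+* ℂ) (x : K) (M : ℕ) (ν : 𝓞 K) (u u' : ℂ) :
    chi768 e x M ν (u + u') = chi768 e x M ν u * chi768 e x M ν u' := by
  unfold chi768
  rw [mul_add, tau_add768, add_div, cis_add768]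

theorem chi_one768 (e : K →+* ℂ) (x : K) (M : ℕ) (u : ℂ) : chi768 e x M 0 u = 1 := by
  unfold chi768
  rw [coe_zero768, map_zero, zero_mul, tau_zero768, zero_div, cis_zero768]

theorem chi_add768 (e : K →+* ℂ) (x : K) (M : ℕ) (ν ν' : 𝓞 K) (u : ℂ) :
    chi768 e x M (ν + ν') u = chi768 e x M ν u * chi768 e x M ν' u := by
  unfold chi768
  rw [coe_add768, map_add, add_mul, tau_add768, add_div, cis_add768]

theorem chi_neg768 (e : K →+* ℂ) (x : K) (M : ℕ) (ν : 𝓞 K) (u : ℂ) :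
    chi768 e x M (-ν) u = conj (chi768 e x M ν u) := by
  unfold chi768
  rw [coe_neg768, map_neg, neg_mul, tau_neg768, neg_div, cis_neg768]

theorem chi_scale768 (e : K →+* ℂ) (x : K) (M : ℕ) (ν ϖ : 𝓞 K) (u : ℂ) :
    chi768 e x M ν (e (ϖ : K) * u) = chi768 e x M (ϖ * ν) u := by
  unfold chi768
  rw [coe_mul768, map_mul]
  congr 3
  ring

theorem continuous_chi768 (e : K →+* ℂ) (x : K) (M : ℕ) (ν : 𝓞 K) :
    Continuous (chi768 e x M ν) := by
  unfold chi768
  exact continuous_cis768.comp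
    (((continuous_tau768 e x).comp (continuous_const.mul continuous_id)).div_const _)

/-- The value of a character at `M e(y) / e(ϖ)`-like points: `χ_ν (M w) = exp (2 π i τ (e ν w))`. -/
theorem chi_natMul768 (e : K →+* ℂ) (x : K) {M : ℕ} (hM : 0 < M) (ν : 𝓞 K) (w : ℂ) :
    chi768 e x M ν ((M : ℂ) * w) = cis768 (tau768 e x (e (ν : K) * w)) := by
  unfold chi768
  have h1 : e (ν : K) * ((M : ℂ) * w) = (((M : ℝ)) : ℂ) * (e (ν : K) * w) := by
    push_cast
    ring
  rw [h1, tau_real_mul768]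
  have hM0 : (M : ℝ) ≠ 0 := Nat.cast_ne_zero.mpr hM.ne'
  congr 1
  field_simp

theorem chi_lat768 (h : IsImagQuad K) (e : K →+* ℂ) {x : K} (hx : x * x = -3) {M : ℕ}
    (hM : 0 < M) (ν l : 𝓞 K) : chi768 e x M ν ((M : ℂ) * e (l : K)) = 1 := by
  rw [chi_natMul768 e x hM, ← map_mul, ← coe_mul768]
  obtain ⟨n, hn⟩ := tau_int768 h e hx (ν * l)
  rw [hn]
  exact cis_int768 n

theorem chi_per768 (h : IsImagQuad K) (e : K →+* ℂ) {x : K} (hx : x * x = -3) {M : ℕ}
    (hM : 0 < M) (ν l : 𝓞 K) (u : ℂ) :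
    chi768 e x M ν (u + (M : ℂ) * e (l : K)) = chi768 e x M ν u := by
  rw [chi_mul768, chi_lat768 h e hx hM, mul_one]

/-- The characters detect the lattice. -/
theorem mem_lam_of_chi768 (e : K →+* ℂ) {x : K} (hx : x * x = -3) {M : ℕ} (hM : 0 < M)
    (u : ℂ) (h1 : chi768 e x M 1 u = 1) (h2 : chi768 e x M (zetaInt768 hx) u = 1) :
    u ∈ lam768 e M := by
  have hM0 := natCast_ne_zero768 hM
  have hu : u = (M : ℂ) * (u / M) := by field_simp
  rw [hu, chi_natMul768 e x hM, cis_eq_one_iff768] at h1 h2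
  obtain ⟨n, hn⟩ := h1
  obtain ⟨m, hm⟩ := h2
  rw [coe_one768, map_one, one_mul] at hn
  have hm' : tau768 e x (e (zeta768 x) * (u / M)) = m := hm
  have := mem_lattice_of_tau768 e hx (u / M) n m hn hm'
  refine mem_lam768.mpr ⟨latInt768 hx (m + n) n, ?_⟩
  rw [this]
  field_simp

theorem tau_zeta768 (e : K →+* ℂ) {x : K} (hx : x * x = -3) :
    tau768 e x (e (zeta768 x)) = 1 := by
  have := tau_coords768 e hx 0 1
  simpa using this

theorem chi_nontriv768 (e : K →+* ℂ) {x : K} (hx : x * x = -3) {M : ℕ} (hM : 0 < M)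
    (ν : 𝓞 K) (hν : ν ≠ 0) : ∃ u : ℂ, chi768 e x M ν u ≠ 1 := by
  have hν' : (ν : K) ≠ 0 := fun h0 => hν (by ext; rw [h0]; rfl)
  have heν := emb_ne_zero768 e hν'
  refine ⟨(M : ℂ) * (((1 / 2 : ℝ) : ℂ) * e (zeta768 x) / e (ν : K)), ?_⟩
  rw [chi_natMul768 e x hM]
  have h1 : e (ν : K) * (((1 / 2 : ℝ) : ℂ) * e (zeta768 x) / e (ν : K))
      = ((1 / 2 : ℝ) : ℂ) * e (zeta768 x) := by
    field_simp
  rw [h1, tau_real_mul768, tau_zeta768 e hx, mul_one]
  intro h
  obtain ⟨n, hn⟩ := (cis_eq_one_iff768 _).1 h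
  have h2 : (2 : ℝ) * n = 1 := by rw [← hn]; norm_num
  have h3 : (2 : ℤ) * n = 1 := by exact_mod_cast h2
  omega

/-! ### Periodic functions and the quotient -/

/-- `f` is periodic under `M e(𝓞 K)`. -/
def IsPer768 (e : K →+* ℂ) (M : ℕ) (f : ℂ → ℂ) : Prop :=
  ∀ (l : 𝓞 K) (u : ℂ), f (u + (M : ℂ) * e (l : K)) = f u

/-- A function on `ℂ` as a function on the torus (evaluation at the chosen representative). -/
def dn768 (e : K →+* ℂ) (M : ℕ) (f : ℂ → ℂ) : Q768 e M → ℂ := fun q => f (Quotient.out q)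

theorem dn_mk768 {e : K →+* ℂ} {M : ℕ} {f : ℂ → ℂ} (hf : IsPer768 e M f) (u : ℂ) :
    dn768 e M f (QuotientAddGroup.mk u) = f u := by
  unfold dn768
  obtain ⟨⟨t, ht⟩, hout⟩ := QuotientAddGroup.mk_out_eq_add (lam768 e M) u
  obtain ⟨l, rfl⟩ := mem_lam768.mp ht
  rw [hout]
  exact hf l u

theorem mk_out768 {e : K →+* ℂ} {M : ℕ} (q : Q768 e M) :
    (QuotientAddGroup.mk (Quotient.out q) : Q768 e M) = q := QuotientAddGroup.out_eq' q

theorem continuous_dn768 {e : K →+* ℂ} {M : ℕ} {f : ℂ → ℂ} (hf : IsPer768 e M f)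
    (hc : Continuous f) : Continuous (dn768 e M f) := by
  rw [(QuotientAddGroup.isQuotientMap_mk (lam768 e M)).continuous_iff]
  refine hc.congr fun u => ?_
  exact (dn_mk768 hf u).symm

theorem isPer_chi768 (h : IsImagQuad K) (e : K →+* ℂ) {x : K} (hx : x * x = -3) {M : ℕ}
    (hM : 0 < M) (ν : 𝓞 K) : IsPer768 e M (chi768 e x M ν) :=
  fun l u => chi_per768 h e hx hM ν l u

/-- The characters of the torus. -/
def psi768 (e : K →+* ℂ) (x : K) (M : ℕ) (ν : 𝓞 K) : Q768 e M → ℂ := dn768 e M (chi768 e x M ν)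

theorem isCharFam_psi768 (h : IsImagQuad K) (e : K →+* ℂ) {x : K} (hx : x * x = -3) {M : ℕ}
    (hM : 0 < M) : IsCharFam768 (psi768 e x M) where
  cont ν := continuous_dn768 (isPer_chi768 h e hx hM ν) (continuous_chi768 e x M ν)
  mul ν a b := by
    obtain ⟨u, rfl⟩ := QuotientAddGroup.mk_surjective a
    obtain ⟨u', rfl⟩ := QuotientAddGroup.mk_surjective b
    unfold psi768
    rw [← QuotientAddGroup.mk_add, dn_mk768 (isPer_chi768 h e hx hM ν),
      dn_mk768 (isPer_chi768 h e hx hM ν), dn_mk768 (isPer_chi768 h e hx hM ν), chi_mul768]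
  one a := chi_one768 e x M _
  add ν ν' a := chi_add768 e x M ν ν' _
  neg ν a := chi_neg768 e x M ν _
  nontriv ν hν := by
    obtain ⟨u, hu⟩ := chi_nontriv768 e hx hM ν hν
    refine ⟨QuotientAddGroup.mk u, ?_⟩
    unfold psi768
    rw [dn_mk768 (isPer_chi768 h e hx hM ν)]
    exact hu
  sep a b hab := by
    obtain ⟨u, rfl⟩ := QuotientAddGroup.mk_surjective a
    obtain ⟨u', rfl⟩ := QuotientAddGroup.mk_surjective b
    by_contra hall
    rw [not_exists] at hall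
    have key : ∀ ν : 𝓞 K, chi768 e x M ν (-u + u') = 1 := by
      intro ν
      have h1 := hall ν
      rw [not_not] at h1
      unfold psi768 at h1
      rw [dn_mk768 (isPer_chi768 h e hx hM ν), dn_mk768 (isPer_chi768 h e hx hM ν)] at h1
      have h2 : chi768 e x M ν u' = chi768 e x M ν u * chi768 e x M ν (-u + u') := by
        rw [← chi_mul768]
        congr 1
        ring
      have h3 : chi768 e x M ν u ≠ 0 := by
        unfold chi768 cis768
        exact Complex.exp_ne_zero _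
      rw [← h1] at h2
      have h4 : chi768 e x M ν u * 1 = chi768 e x M ν u * chi768 e x M ν (-u + u') := by
        rw [mul_one]
        exact h2
      exact (mul_left_cancel₀ h3 h4).symm
    apply hab
    rw [QuotientAddGroup.eq]
    exact mem_lam_of_chi768 e hx hM _ (key 1) (key (zetaInt768 hx))

/-! ### Invariance of the Haar integral -/

theorem dn_add768 {e : K →+* ℂ} {M : ℕ} {f : ℂ → ℂ} (hf : IsPer768 e M f) (q : Q768 e M)
    (t : ℂ) : dn768 e M f (q + QuotientAddGroup.mk t) = f (Quotient.out q + t) := by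
  conv_lhs => rw [← mk_out768 q]
  rw [← QuotientAddGroup.mk_add, dn_mk768 hf]

/-- Multiplication by `e ϖ` on the torus. -/
def scaleQ768 (e : K →+* ℂ) (M : ℕ) (ϖ : 𝓞 K) : Q768 e M →+ Q768 e M :=
  QuotientAddGroup.map (lam768 e M) (lam768 e M) (AddMonoidHom.mulLeft (e (ϖ : K))) (by
    rintro _ ⟨l, rfl⟩
    refine mem_lam768.mpr ⟨ϖ * l, ?_⟩
    rw [coe_mul768, map_mul]
    show _ = e (ϖ : K) * ((M : ℂ) * e (l : K))
    ring)

theorem scaleQ768_mk (e : K →+* ℂ) (M : ℕ) (ϖ : 𝓞 K) (u : ℂ) :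
    scaleQ768 e M ϖ (QuotientAddGroup.mk u) = QuotientAddGroup.mk (e (ϖ : K) * u) := rfl

theorem continuous_scaleQ768 (e : K →+* ℂ) (M : ℕ) (ϖ : 𝓞 K) :
    Continuous (scaleQ768 e M ϖ) := by
  rw [(QuotientAddGroup.isQuotientMap_mk (lam768 e M)).continuous_iff]
  exact QuotientAddGroup.continuous_mk.comp (continuous_const.mul continuous_id)

theorem surjective_scaleQ768 (e : K →+* ℂ) (M : ℕ) {ϖ : 𝓞 K} (hϖ : ϖ ≠ 0) :
    Function.Surjective (scaleQ768 e M ϖ) := by
  have hϖ' : (ϖ : K) ≠ 0 := fun h0 => hϖ (by ext; rw [h0]; rfl)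
  have heϖ := emb_ne_zero768 e hϖ'
  intro q
  obtain ⟨u, rfl⟩ := QuotientAddGroup.mk_surjective q
  refine ⟨QuotientAddGroup.mk (u / e (ϖ : K)), ?_⟩
  rw [scaleQ768_mk]
  congr 1
  field_simp

theorem dn_scale768 {e : K →+* ℂ} {M : ℕ} {f : ℂ → ℂ} (hf : IsPer768 e M f) (ϖ : 𝓞 K)
    (q : Q768 e M) : dn768 e M f (scaleQ768 e M ϖ q) = f (e (ϖ : K) * Quotient.out q) := by
  conv_lhs => rw [← mk_out768 q]
  rw [scaleQ768_mk, dn_mk768 hf]

section Measure

variable {e : K →+* ℂ} {M : ℕ} [IsClosed (lam768 e M : Set ℂ)] [CompactSpace (Q768 e M)]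
  (μ : Measure (Q768 e M)) [μ.IsAddHaarMeasure] [IsProbabilityMeasure μ]

theorem integral_translate768 {f : ℂ → ℂ} (hf : IsPer768 e M f) (t : ℂ) :
    ∫ q, f (Quotient.out q + t) ∂μ = ∫ q, f (Quotient.out q) ∂μ := by
  have h1 := integral_add_right_eq_self (μ := μ) (dn768 e M f) (QuotientAddGroup.mk t)
  simp_rw [dn_add768 hf] at h1
  exact h1

theorem integral_scale768 {f : ℂ → ℂ} (hf : IsPer768 e M f) (hc : Continuous f) {ϖ : 𝓞 K}
    (hϖ : ϖ ≠ 0) :
    ∫ q, f (e (ϖ : K) * Quotient.out q) ∂μ = ∫ q, f (Quotient.out q) ∂μ := by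
  have hmp : MeasurePreserving (scaleQ768 e M ϖ) μ μ :=
    AddMonoidHom.measurePreserving (continuous_scaleQ768 e M ϖ) (surjective_scaleQ768 e M hϖ) rfl
  have hcd := continuous_dn768 hf hc
  have h1 := integral_map (μ := μ) (φ := scaleQ768 e M ϖ) hmp.measurable.aemeasurable
    (f := dn768 e M f) hcd.aestronglyMeasurable
  rw [hmp.map_eq] at h1
  simp_rw [dn_scale768 hf] at h1
  exact h1.symm

end Measure

end Fermat.Agent.LT.T7.H768

end
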