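import Mathlib
import Fermat.Agent.LT.T7.H768.TorusK

/-!
# Row LT, tower T7, leaf T7.13i `HoroCoeffFC` (helper768), OFF-MAIN

Registry row 1275.  Spec bytes: `LT/T7/H37/ThinSpec.lean` of `origin/helper37@8584ef06e`
(sha256 `4c697dce71c28f9b…`), on `LT/T7/Spec.lean` v1.2 (sha256 `76a196044a64b920…`).

`horoCoeffFC768 : H37.HoroCoeffFC` (VERBATIM): Fourier analysis on the torus `ℂ / M e(𝓞_K)`,
`K = ℚ(√-3)`.

Proof.  `G = (𝓞_K / M)ˣ`, `ψ` a character of `G`, `V_ψ (z, y) = ∑_κ ψ(κ)⁻¹ U κ z y`,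
`χ ϖ = ψ [ϖ]`, `c ν y` the Fourier coefficient of `V_ψ (·, y)` on `Q = ℂ / M e(𝓞_K)` (Haar
probability measure) at the character `χ_ν (u) = exp (2 π i τ (e ν · u) / M)`,
`τ w = 2 Im w / Im (e √-3)`.
* Bessel's inequality and completeness: `Torus.lean` (Stone--Weierstrass), `TorusK.lean`.
* `cont`: dominated convergence.
* `star`: the Hecke relation of `HoroDataF`, summed over `κ` against `ψ⁻¹`, reads
  `ψ[ϖ] ∑_j V ((z + M e j) / e ϖ, y / |e ϖ|) + B ψ[ϖ]⁻¹ V (e ϖ · z, |e ϖ| y) = √N A V (z, y)`.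
  The `ν`-th coefficient of the second term vanishes if `ϖ ∤ ν` (it is invariant under the
  translations by `M e(j) / e(ϖ)`, `j = 1, ζ`, and `χ_ν` is not: `integral_of_tau768`); the
  `ν`-th coefficient of the first term is `#R · c (ϖ ν)` (invariance of the Haar measure under
  `u ↦ e ϖ · u`, then under the translations by `M e(j) / e(ϖ)`), and `#R = N v`.
* non-vanishing: inversion of the character sums over `G`, then completeness.
-/

set_option autoImplicit false
set_option linter.unusedSectionVars false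
set_option linter.style.haveILetI false

open IsDedekindDomain NumberField MeasureTheory
open scoped ComplexConjugate

noncomputable section

namespace Fermat.Agent.LT.T7.H768

open Fermat.Agent.LT.T7 Fermat.Agent.LT.T7.H37

/-! ### Characters of a finite abelian group -/

/-- Inversion of character sums: a non-zero function on a finite abelian group has a non-zero
character sum. -/
theorem exists_char_sum_ne768 {A : Type*} [AddCommGroup A] [Fintype A] (h : A → ℂ) (a₀ : A)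
    (h0 : h a₀ ≠ 0) : ∃ ψ : AddChar A ℂ, ∑ a, ψ (-a) * h a ≠ 0 := by
  classical
  by_contra hall
  rw [not_exists] at hall
  have hall' : ∀ ψ : AddChar A ℂ, ∑ a, ψ (-a) * h a = 0 := fun ψ => not_not.1 (hall ψ)
  have key : ∑ ψ : AddChar A ℂ, ψ a₀ * ∑ a, ψ (-a) * h a = (Fintype.card A : ℂ) * h a₀ := by
    simp_rw [Finset.mul_sum]
    rw [Finset.sum_comm]
    have h1 : ∀ a, ∑ ψ : AddChar A ℂ, ψ a₀ * (ψ (-a) * h a)
        = (if a₀ - a = 0 then (Fintype.card A : ℂ) else 0) * h a := by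
      intro a
      rw [← AddChar.sum_apply_eq_ite, Finset.sum_mul]
      refine Finset.sum_congr rfl fun ψ _ => ?_
      rw [sub_eq_add_neg, AddChar.map_add_eq_mul]
      ring
    simp_rw [h1]
    rw [Finset.sum_eq_single a₀]
    · simp
    · intro b _ hb
      rw [if_neg, zero_mul]
      intro hab
      exact hb (sub_eq_zero.mp hab).symm
    · intro hn
      exact absurd (Finset.mem_univ _) hn
  simp_rw [hall', mul_zero, Finset.sum_const_zero] at key
  have hcard : (Fintype.card A : ℂ) ≠ 0 := Nat.cast_ne_zero.2 Fintype.card_ne_zero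
  exact h0 ((mul_eq_zero.1 key.symm).resolve_left hcard)

variable {K : Type} [Field K] [NumberField K]

/-- The group `(𝓞 K / M)ˣ`. -/
abbrev GM768 (K : Type) [Field K] [NumberField K] (M : ℕ) : Type :=
  (𝓞 K ⧸ Ideal.span {((M : ℕ) : 𝓞 K)})ˣ

theorem finite_GM768 (K : Type) [Field K] [NumberField K] {M : ℕ} (hM : 0 < M) :
    Finite (GM768 K M) := by
  have hne : Ideal.span {((M : ℕ) : 𝓞 K)} ≠ ⊥ := by
    intro h0
    rw [Ideal.span_singleton_eq_bot] at h0
    have : (M : ℕ) = 0 := by exact_mod_cast h0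
    omega
  have hfin : Finite (𝓞 K ⧸ Ideal.span {((M : ℕ) : 𝓞 K)}) :=
    Ideal.finiteQuotientOfFreeOfNeBot _ hne
  infer_instance

/-- A complete system of residues modulo a generator of a finite place, with `N v` elements
(as in `H949.exists_resSys949`). -/
theorem exists_resSys768 (K : Type) [Field K] [NumberField K] (v : HeightOneSpectrum (𝓞 K))
    (ϖ : 𝓞 K) (hϖ : v.asIdeal = Ideal.span {ϖ}) :
    ∃ R : Finset (𝓞 K), IsResSys K ϖ R ∧ R.card = Ideal.absNorm v.asIdeal := by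
  classical
  have hfin : Finite (𝓞 K ⧸ v.asIdeal) := Ideal.finiteQuotientOfFreeOfNeBot v.asIdeal v.ne_bot
  let _ : Fintype (𝓞 K ⧸ v.asIdeal) := Fintype.ofFinite _
  refine ⟨Finset.univ.image (fun a : 𝓞 K ⧸ v.asIdeal => Quotient.out a), ⟨?_, ?_⟩, ?_⟩
  · intro x
    refine ⟨Quotient.out (Ideal.Quotient.mk v.asIdeal x),
      Finset.mem_image_of_mem _ (Finset.mem_univ _), ?_⟩
    rw [← Ideal.mem_span_singleton, ← hϖ, ← Ideal.Quotient.eq]
    exact (Ideal.Quotient.mk_out _).symm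
  · intro j hj j' hj' hdvd
    obtain ⟨a, -, rfl⟩ := Finset.mem_image.mp hj
    obtain ⟨b, -, rfl⟩ := Finset.mem_image.mp hj'
    have hmem : Quotient.out a - Quotient.out b ∈ Ideal.span {ϖ} :=
      Ideal.mem_span_singleton.mpr hdvd
    rw [← hϖ] at hmem
    have h : Ideal.Quotient.mk v.asIdeal (Quotient.out a)
        = Ideal.Quotient.mk v.asIdeal (Quotient.out b) := Ideal.Quotient.eq.mpr hmem
    rw [Ideal.Quotient.mk_out, Ideal.Quotient.mk_out] at h
    rw [h]
  · rw [Finset.card_image_of_injective Finset.univ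
        (f := fun a : 𝓞 K ⧸ v.asIdeal => Quotient.out a)
        (fun a b h => Quotient.out_injective h),
      Finset.card_univ, ← Nat.card_eq_fintype_card, Ideal.absNorm_apply,
      Submodule.cardQuot_apply]

/-! ### The isotypic sums -/

section Iso

variable {M : ℕ} [Fintype (GM768 K M)]

/-- The isotypic sum `V_ψ (z, y) = ∑_κ ψ(κ)⁻¹ U κ z y`. -/
def Vf768 (ψ : AddChar (Additive (GM768 K M)) ℂ) (U : GM768 K M → ℂ → ℝ → ℂ) (y : ℝ) (z : ℂ) :
    ℂ :=
  ∑ κ : GM768 K M, ψ (-Additive.ofMul κ) * U κ z y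

theorem sum_shift768 (ψ : AddChar (Additive (GM768 K M)) ℂ) (U' : GM768 K M → ℂ)
    (u : GM768 K M) :
    ∑ κ : GM768 K M, ψ (-Additive.ofMul κ) * U' (κ * u)
      = ψ (Additive.ofMul u) * ∑ κ : GM768 K M, ψ (-Additive.ofMul κ) * U' κ := by
  rw [Finset.mul_sum]
  refine Fintype.sum_equiv (Equiv.mulRight u) _ _ fun κ => ?_
  simp only [Equiv.coe_mulRight]
  rw [ofMul_mul, neg_add, AddChar.map_add_eq_mul, ← mul_assoc, ← mul_assoc]
  congr 1
  rw [mul_comm (ψ (Additive.ofMul u)), mul_assoc, ← AddChar.map_add_eq_mul,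
    add_neg_cancel, AddChar.map_zero_eq_one, mul_one]

variable {e : K →+* ℂ} {A B : HeightOneSpectrum (𝓞 K) → ℂ} {U : GM768 K M → ℂ → ℝ → ℂ} {C : ℝ}

theorem continuous_Vf768 (hD : HoroDataF K e M A B U C)
    (ψ : AddChar (Additive (GM768 K M)) ℂ) {y : ℝ} (hy : 0 < y) : Continuous (Vf768 ψ U y) := by
  unfold Vf768
  exact continuous_finsetSum _ fun κ _ => continuous_const.mul (hD.cont_z κ y hy)

theorem isPer_Vf768 (hD : HoroDataF K e M A B U C)
    (ψ : AddChar (Additive (GM768 K M)) ℂ) {y : ℝ} (hy : 0 < y) :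
    IsPer768 e M (Vf768 ψ U y) := by
  intro l u
  unfold Vf768
  refine Finset.sum_congr rfl fun κ _ => ?_
  rw [hD.periodic κ l u y hy]

theorem norm_Vf_le768 (hD : HoroDataF K e M A B U C)
    (ψ : AddChar (Additive (GM768 K M)) ℂ) {y : ℝ} (hy : 0 < y) (z : ℂ) :
    ‖Vf768 ψ U y z‖ ≤ Fintype.card (GM768 K M) * C := by
  unfold Vf768
  refine (norm_sum_le _ _).trans ?_
  have h1 : ∀ κ ∈ (Finset.univ : Finset (GM768 K M)),
      ‖ψ (-Additive.ofMul κ) * U κ z y‖ ≤ C := by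
    intro κ _
    rw [norm_mul, AddChar.norm_apply, one_mul]
    exact hD.bdd κ z y hy
  refine (Finset.sum_le_sum h1).trans ?_
  rw [Finset.sum_const, Finset.card_univ, nsmul_eq_mul]

theorem continuousOn_Vf768 (hD : HoroDataF K e M A B U C)
    (ψ : AddChar (Additive (GM768 K M)) ℂ) (z : ℂ) :
    ContinuousOn (fun y : ℝ => Vf768 ψ U y z) (Set.Ioi 0) := by
  unfold Vf768
  exact continuousOn_finsetSum _ fun κ _ => continuousOn_const.mul (hD.cont_y κ z)

/-- The Hecke relation for the isotypic sums. -/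
theorem hecke_Vf768 (hD : HoroDataF K e M A B U C) (ψ : AddChar (Additive (GM768 K M)) ℂ)
    (v : HeightOneSpectrum (𝓞 K)) (ϖ : 𝓞 K) (hv : v.asIdeal = Ideal.span {ϖ})
    (hMv : ((M : ℕ) : 𝓞 K) ∉ v.asIdeal) (R : Finset (𝓞 K)) (hR : IsResSys K ϖ R)
    (z : ℂ) {y : ℝ} (hy : 0 < y) :
    ψ (Additive.ofMul (unitClsF K M ϖ))
          * ∑ j ∈ R, Vf768 ψ U (y / ‖e (ϖ : K)‖) ((z + (M : ℂ) * e (j : K)) / e (ϖ : K))
        + B v * ψ (Additive.ofMul (unitClsF K M ϖ)⁻¹)
          * Vf768 ψ U (‖e (ϖ : K)‖ * y) (e (ϖ : K) * z)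
      = ((Real.sqrt (nrm v) : ℝ) : ℂ) * A v * Vf768 ψ U y z := by
  have hH := fun κ => hD.hecke v ϖ hv hMv R hR κ z y hy
  have h1 : ∑ κ : GM768 K M, ψ (-Additive.ofMul κ) *
      (∑ j ∈ R, U (κ * unitClsF K M ϖ) ((z + (M : ℂ) * e (j : K)) / e (ϖ : K))
            (y / ‖e (ϖ : K)‖)
          + B v * U (κ * (unitClsF K M ϖ)⁻¹) (e (ϖ : K) * z) (‖e (ϖ : K)‖ * y))
      = ((Real.sqrt (nrm v) : ℝ) : ℂ) * A v * Vf768 ψ U y z := by
    unfold Vf768
    rw [Finset.mul_sum]
    refine Finset.sum_congr rfl fun κ _ => ?_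
    rw [hH κ]
    ring
  rw [← h1]
  simp_rw [mul_add, Finset.sum_add_distrib]
  congr 1
  · -- the sum over `j`
    simp_rw [Finset.mul_sum]
    rw [Finset.sum_comm]
    refine Finset.sum_congr rfl fun j _ => ?_
    unfold Vf768
    exact (sum_shift768 ψ (fun κ => U κ ((z + (M : ℂ) * e (j : K)) / e (ϖ : K))
      (y / ‖e (ϖ : K)‖)) (unitClsF K M ϖ)).symm
  · have h2 := sum_shift768 ψ (fun κ => U κ (e (ϖ : K) * z) (‖e (ϖ : K)‖ * y))
      (unitClsF K M ϖ)⁻¹
    unfold Vf768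
    rw [mul_assoc, ← h2, Finset.mul_sum]
    refine Finset.sum_congr rfl fun κ _ => ?_
    ring

end Iso

/-! ### Integrals on the torus -/

theorem norm_cis768 (r : ℝ) : ‖cis768 r‖ = 1 := by
  unfold cis768
  have h : (2 * Real.pi * Complex.I * (r : ℂ) : ℂ) = ((2 * Real.pi * r : ℝ) : ℂ) * Complex.I := by
    push_cast
    ring
  rw [h, Complex.norm_exp_ofReal_mul_I]

theorem norm_conj_chi768 (e : K →+* ℂ) (x : K) (M : ℕ) (ν : 𝓞 K) (u : ℂ) :
    ‖conj (chi768 e x M ν u)‖ = 1 := by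
  rw [RCLike.norm_conj]
  exact norm_cis768 _

theorem coe_ne_zero768 {ϖ : 𝓞 K} (hϖ : ϖ ≠ 0) : (ϖ : K) ≠ 0 :=
  fun h0 => hϖ (by ext; rw [h0]; rfl)

section Coef

variable {e : K →+* ℂ} {M : ℕ}

theorem isPer_scale768 {g : ℂ → ℂ} (hg : IsPer768 e M g) (ϖ : 𝓞 K) :
    IsPer768 e M (fun z => g (e (ϖ : K) * z)) := by
  intro l u
  show g (e (ϖ : K) * (u + (M : ℂ) * e (l : K))) = g (e (ϖ : K) * u)
  have h1 : e (ϖ : K) * (u + (M : ℂ) * e (l : K))
      = e (ϖ : K) * u + (M : ℂ) * e ((ϖ * l : 𝓞 K) : K) := by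
    rw [coe_mul768, map_mul]
    ring
  rw [h1, hg]

theorem isPer_mul768 {f g : ℂ → ℂ} (hf : IsPer768 e M f) (hg : IsPer768 e M g) :
    IsPer768 e M (fun z => f z * g z) := by
  intro l u
  show f _ * g _ = f u * g u
  rw [hf, hg]

theorem isPer_conj768 {f : ℂ → ℂ} (hf : IsPer768 e M f) :
    IsPer768 e M (fun z => conj (f z)) := by
  intro l u
  show conj (f _) = conj (f u)
  rw [hf]

variable [IsClosed (lam768 e M : Set ℂ)] [CompactSpace (Q768 e M)]
  (μ : Measure (Q768 e M)) [μ.IsAddHaarMeasure] [IsProbabilityMeasure μ]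

theorem continuous_dn_mul768 (h : IsImagQuad K) {x : K} (hx : x * x = -3) (hM : 0 < M)
    {f : ℂ → ℂ} (hf : IsPer768 e M f) (hc : Continuous f) (ν : 𝓞 K) :
    Continuous (fun q : Q768 e M =>
      f (Quotient.out q) * conj (chi768 e x M ν (Quotient.out q))) :=
  (continuous_dn768 hf hc).mul (Complex.continuous_conj.comp
    (continuous_dn768 (isPer_chi768 h e hx hM ν) (continuous_chi768 e x M ν)))

theorem integrable_dn_mul768 (h : IsImagQuad K) {x : K} (hx : x * x = -3) (hM : 0 < M)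
    {f : ℂ → ℂ} (hf : IsPer768 e M f) (hc : Continuous f) (ν : 𝓞 K) :
    Integrable (fun q : Q768 e M =>
      f (Quotient.out q) * conj (chi768 e x M ν (Quotient.out q))) μ :=
  (continuous_dn_mul768 h hx hM hf hc ν).integrable_of_hasCompactSupport
    (HasCompactSupport.of_compactSpace _)

/-- The coefficient at `ν` of `z ↦ g (e ϖ · z)` vanishes if `ϖ ∤ ν`. -/
theorem integral_twisted_zero768 (h : IsImagQuad K) {x : K} (hx : x * x = -3) (hM : 0 < M)
    {g : ℂ → ℂ} (hg : IsPer768 e M g) {ϖ ν : 𝓞 K} (hϖ : ϖ ≠ 0) (hν : ¬ ϖ ∣ ν) :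
    ∫ q, g (e (ϖ : K) * Quotient.out q) * conj (chi768 e x M ν (Quotient.out q)) ∂μ = 0 := by
  have hϖ' := coe_ne_zero768 hϖ
  have heϖ := emb_ne_zero768 e hϖ'
  set F : ℂ → ℂ := fun z => g (e (ϖ : K) * z) * conj (chi768 e x M ν z) with hF
  have hFper : IsPer768 e M F :=
    isPer_mul768 (isPer_scale768 hg ϖ) (isPer_conj768 (isPer_chi768 h e hx hM ν))
  have key : ∀ j : 𝓞 K, (∫ q, F (Quotient.out q) ∂μ)
      * (1 - conj (chi768 e x M ν ((M : ℂ) * (e (j : K) / e (ϖ : K))))) = 0 := by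
    intro j
    have h1 := integral_translate768 μ hFper ((M : ℂ) * (e (j : K) / e (ϖ : K)))
    have h2 : ∀ z, F (z + (M : ℂ) * (e (j : K) / e (ϖ : K)))
        = F z * conj (chi768 e x M ν ((M : ℂ) * (e (j : K) / e (ϖ : K)))) := by
      intro z
      simp only [hF]
      have e1 : e (ϖ : K) * (z + (M : ℂ) * (e (j : K) / e (ϖ : K)))
          = e (ϖ : K) * z + (M : ℂ) * e (j : K) := by
        field_simp
      rw [e1, hg j, chi_mul768, map_mul]
      ring
    simp_rw [h2] at h1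
    rw [integral_mul_const] at h1
    linear_combination -h1
  by_contra hne
  have hχ : ∀ j : 𝓞 K, chi768 e x M ν ((M : ℂ) * (e (j : K) / e (ϖ : K))) = 1 := by
    intro j
    rcases mul_eq_zero.1 (key j) with h0 | h0
    · exact absurd h0 hne
    · have h3 : conj (chi768 e x M ν ((M : ℂ) * (e (j : K) / e (ϖ : K)))) = 1 :=
        (sub_eq_zero.1 h0).symm
      have h4 := congrArg (starRingEnd ℂ) h3
      rwa [Complex.conj_conj, map_one] at h4
  have h1 := hχ 1
  have h2 := hχ (zetaInt768 hx)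
  rw [chi_natMul768 e x hM, cis_eq_one_iff768] at h1 h2
  obtain ⟨n, hn⟩ := h1
  obtain ⟨m, hm⟩ := h2
  set y : K := (ν : K) / (ϖ : K) with hy
  have e1 : e (ν : K) * (e ((1 : 𝓞 K) : K) / e (ϖ : K)) = e y := by
    rw [coe_one768, map_one, hy, map_div₀]
    ring
  have e2 : e (ν : K) * (e ((zetaInt768 hx : 𝓞 K) : K) / e (ϖ : K)) = e (y * zeta768 x) := by
    rw [hy, map_mul, map_div₀, coe_zetaInt768]
    ring
  rw [e1] at hn
  rw [e2] at hm
  have hlat := integral_of_tau768 h e hx y n m hn hm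
  apply hν
  refine ⟨latInt768 hx (m + n) n, ?_⟩
  apply RingOfIntegers.ext
  rw [coe_mul768, hlat, hy]
  field_simp

/-- The coefficient at `ν` of `W (z) = ∑_j g ((z + M e j) / e ϖ)` is `#R` times the coefficient
of `g` at `ϖ ν`. -/
theorem integral_sum_scaled768 (h : IsImagQuad K) {x : K} (hx : x * x = -3) (hM : 0 < M)
    {g W : ℂ → ℂ} (hg : IsPer768 e M g) (hgc : Continuous g) (hW : IsPer768 e M W)
    (hWc : Continuous W) {ϖ : 𝓞 K} (hϖ : ϖ ≠ 0) (R : Finset (𝓞 K))
    (hWdef : ∀ z, W z = ∑ j ∈ R, g ((z + (M : ℂ) * e (j : K)) / e (ϖ : K))) (ν : 𝓞 K) :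
    ∫ q, W (Quotient.out q) * conj (chi768 e x M ν (Quotient.out q)) ∂μ
      = (R.card : ℂ)
        * ∫ q, g (Quotient.out q) * conj (chi768 e x M (ϖ * ν) (Quotient.out q)) ∂μ := by
  have hϖ' := coe_ne_zero768 hϖ
  have heϖ := emb_ne_zero768 e hϖ'
  set F₁ : ℂ → ℂ := fun z => W z * conj (chi768 e x M ν z) with hF₁
  have hF₁per : IsPer768 e M F₁ :=
    isPer_mul768 hW (isPer_conj768 (isPer_chi768 h e hx hM ν))
  have hF₁c : Continuous F₁ :=
    hWc.mul (Complex.continuous_conj.comp (continuous_chi768 e x M ν))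
  have h1 := integral_scale768 μ hF₁per hF₁c hϖ
  set F₂ : ℂ → ℂ := fun z => g z * conj (chi768 e x M (ϖ * ν) z) with hF₂
  have hF₂per : IsPer768 e M F₂ :=
    isPer_mul768 hg (isPer_conj768 (isPer_chi768 h e hx hM (ϖ * ν)))
  have hF₂c : Continuous F₂ :=
    hgc.mul (Complex.continuous_conj.comp (continuous_chi768 e x M (ϖ * ν)))
  have h2 : ∀ z, F₁ (e (ϖ : K) * z)
      = ∑ j ∈ R, F₂ (z + (M : ℂ) * (e (j : K) / e (ϖ : K))) := by
    intro z
    simp only [hF₁, hF₂]
    rw [hWdef, Finset.sum_mul]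
    refine Finset.sum_congr rfl fun j _ => ?_
    have e1 : (e (ϖ : K) * z + (M : ℂ) * e (j : K)) / e (ϖ : K)
        = z + (M : ℂ) * (e (j : K) / e (ϖ : K)) := by
      field_simp
    have e2 : chi768 e x M (ϖ * ν) ((M : ℂ) * (e (j : K) / e (ϖ : K))) = 1 := by
      rw [← chi_scale768]
      have e3 : e (ϖ : K) * ((M : ℂ) * (e (j : K) / e (ϖ : K))) = (M : ℂ) * e (j : K) := by
        field_simp
      rw [e3, chi_lat768 h e hx hM]
    rw [e1, chi_scale768, chi_mul768 e x M (ϖ * ν) z, e2, mul_one]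
  have h3 : (fun q : Q768 e M => F₁ (Quotient.out q)) = fun q : Q768 e M =>
      W (Quotient.out q) * conj (chi768 e x M ν (Quotient.out q)) := rfl
  have h4 : (fun q : Q768 e M => F₂ (Quotient.out q)) = fun q : Q768 e M =>
      g (Quotient.out q) * conj (chi768 e x M (ϖ * ν) (Quotient.out q)) := rfl
  rw [← h3, ← h4, ← h1]
  simp_rw [h2]
  rw [integral_finsetSum]
  · simp_rw [integral_translate768 μ hF₂per]
    rw [Finset.sum_const, nsmul_eq_mul]
  · intro j _
    have h5 : (fun q : Q768 e M => F₂ (Quotient.out q + (M : ℂ) * (e (j : K) / e (ϖ : K))))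
        = fun q : Q768 e M => dn768 e M F₂
            (q + QuotientAddGroup.mk ((M : ℂ) * (e (j : K) / e (ϖ : K)))) := by
      funext q
      rw [dn_add768 hF₂per]
    rw [h5]
    exact ((continuous_dn768 hF₂per hF₂c).comp
      (continuous_id.add continuous_const)).integrable_of_hasCompactSupport
        (HasCompactSupport.of_compactSpace _)

end Coef

/-! ### The leaf -/

theorem exists_char_ne768 {M : ℕ} [Fintype (GM768 K M)] (U' U'' : GM768 K M → ℂ)
    (κ₀ : GM768 K M) (hne : U' κ₀ ≠ U'' κ₀) :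
    ∃ ψ : AddChar (Additive (GM768 K M)) ℂ,
      ∑ κ : GM768 K M, ψ (-Additive.ofMul κ) * U' κ
        ≠ ∑ κ : GM768 K M, ψ (-Additive.ofMul κ) * U'' κ := by
  obtain ⟨ψ, hψ⟩ := exists_char_sum_ne768 (A := Additive (GM768 K M))
    (fun a => U' (Additive.toMul a) - U'' (Additive.toMul a)) (Additive.ofMul κ₀)
    (sub_ne_zero.2 hne)
  refine ⟨ψ, fun heq => hψ ?_⟩
  have h1 : ∑ a : Additive (GM768 K M),
      ψ (-a) * (U' (Additive.toMul a) - U'' (Additive.toMul a))
      = ∑ κ : GM768 K M, ψ (-Additive.ofMul κ) * (U' κ - U'' κ) :=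
    (Fintype.sum_equiv Additive.ofMul _ _ fun κ => rfl).symm
  rw [h1]
  simp_rw [mul_sub]
  rw [Finset.sum_sub_distrib, heq, sub_self]

/-- **Leaf T7.13i HOROCOEFF** (`H37.HoroCoeffFC`, VERBATIM). -/
theorem horoCoeffFC768 : HoroCoeffFC := by
  classical
  intro K _ _ hquad hsq hpid e M A B U C hD hnc
  obtain ⟨x, hx⟩ := hsq
  have hM := hD.M_pos
  haveI hfin : Finite (GM768 K M) := finite_GM768 K hM
  letI : Fintype (GM768 K M) := Fintype.ofFinite _
  haveI hcl : IsClosed (lam768 e M : Set ℂ) := isClosed_lam768 hquad e hx hM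
  haveI hcp : CompactSpace (Q768 e M) := compactSpace_Q768 e hx hM
  set μ : Measure (Q768 e M) := Measure.addHaarMeasure ⊤ with hμ
  haveI hprob : IsProbabilityMeasure μ := ⟨by
    have h1 := Measure.addHaarMeasure_self (G := Q768 e M) (K₀ := ⊤)
    simpa [hμ] using h1⟩
  have hfam := isCharFam_psi768 hquad e hx hM
  obtain ⟨κ₀, z, z', y₀, hy₀, hne⟩ := hnc
  obtain ⟨ψ, hψ⟩ := exists_char_ne768 (fun κ => U κ z y₀) (fun κ => U κ z' y₀) κ₀ hne
  have hV : Vf768 ψ U y₀ z ≠ Vf768 ψ U y₀ z' := hψ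
  refine ⟨fun ϖ => ψ (Additive.ofMul (unitClsF K M ϖ)),
    fun ν y => ∫ q, Vf768 ψ U y (Quotient.out q) * conj (chi768 e x M ν (Quotient.out q)) ∂μ,
    Fintype.card (GM768 K M) * C, ⟨?_, ?_, ?_, ?_⟩, ?_⟩
  · -- chi_norm
    intro v ϖ _ _
    exact AddChar.norm_apply ψ _
  · -- cont
    intro ν
    refine continuousOn_of_dominated (μ := μ)
      (F := fun (y : ℝ) (q : Q768 e M) =>
        Vf768 ψ U y (Quotient.out q) * conj (chi768 e x M ν (Quotient.out q)))
      (bound := fun _ => Fintype.card (GM768 K M) * C) (s := Set.Ioi 0) ?_ ?_ ?_ ?_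
    · intro y hy
      exact (continuous_dn_mul768 hquad hx hM (isPer_Vf768 hD ψ hy)
        (continuous_Vf768 hD ψ hy) ν).aestronglyMeasurable
    · intro y hy
      refine Filter.Eventually.of_forall fun q => ?_
      rw [norm_mul, norm_conj_chi768, mul_one]
      exact norm_Vf_le768 hD ψ hy _
    · exact integrable_const _
    · refine Filter.Eventually.of_forall fun q => ?_
      exact (continuousOn_Vf768 hD ψ _).mul continuousOn_const
  · -- bessel
    intro y hy F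
    have hc := continuous_dn768 (isPer_Vf768 hD ψ hy) (continuous_Vf768 hD ψ hy)
    exact bessel768 hfam μ ⟨dn768 e M (Vf768 ψ U y), hc⟩
      (B := Fintype.card (GM768 K M) * C) (fun q => norm_Vf_le768 hD ψ hy _) F
  · -- star
    intro v ϖ hv hMv ν hν hdiv y hy
    have hϖ : ϖ ≠ 0 := by
      rintro rfl
      apply v.ne_bot
      rw [hv]
      simp
    obtain ⟨R, hR, hcard⟩ := exists_resSys768 K v ϖ hv
    have hϖ' := coe_ne_zero768 hϖ
    have heϖ := emb_ne_zero768 e hϖ'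
    have hnorm : 0 < ‖e (ϖ : K)‖ := norm_pos_iff.2 heϖ
    have hy₁ : 0 < y / ‖e (ϖ : K)‖ := div_pos hy hnorm
    have hy₂ : 0 < ‖e (ϖ : K)‖ * y := mul_pos hnorm hy
    set a₁ : ℂ := ψ (Additive.ofMul (unitClsF K M ϖ)) with ha₁d
    have ha₁ : a₁ ≠ 0 := by
      intro h0
      have h1 : ‖a₁‖ = 1 := AddChar.norm_apply ψ _
      rw [h0, norm_zero] at h1
      exact zero_ne_one h1
    set a₂ : ℂ := B v * ψ (Additive.ofMul (unitClsF K M ϖ)⁻¹) with ha₂d
    set s : ℂ := ((Real.sqrt (nrm v) : ℝ) : ℂ) * A v with hsd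
    set W : ℂ → ℂ := fun z => ∑ j ∈ R,
      Vf768 ψ U (y / ‖e (ϖ : K)‖) ((z + (M : ℂ) * e (j : K)) / e (ϖ : K)) with hWd
    have hH : ∀ z, a₁ * W z + a₂ * Vf768 ψ U (‖e (ϖ : K)‖ * y) (e (ϖ : K) * z)
        = s * Vf768 ψ U y z := fun z => hecke_Vf768 hD ψ v ϖ hv hMv R hR z hy
    have hWeq : ∀ z, W z
        = a₁⁻¹ * (s * Vf768 ψ U y z - a₂ * Vf768 ψ U (‖e (ϖ : K)‖ * y) (e (ϖ : K) * z)) := by
      intro z
      rw [← hH z]
      field_simp
      ring
    have hper₂ := isPer_scale768 (isPer_Vf768 hD ψ hy₂) ϖ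
    have hper₂' : ∀ (l : 𝓞 K) (u : ℂ),
        Vf768 ψ U (‖e (ϖ : K)‖ * y) (e (ϖ : K) * (u + (M : ℂ) * e (l : K)))
          = Vf768 ψ U (‖e (ϖ : K)‖ * y) (e (ϖ : K) * u) := fun l u => hper₂ l u
    have hWper : IsPer768 e M W := by
      intro l u
      rw [hWeq, hWeq, isPer_Vf768 hD ψ hy l u, hper₂' l u]
    have hWc : Continuous W :=
      continuous_finsetSum _ fun j _ => (continuous_Vf768 hD ψ hy₁).comp
        ((continuous_id.add continuous_const).div_const _)
    have hA := integral_twisted_zero768 μ hquad hx hM (isPer_Vf768 hD ψ hy₂) hϖ hdiv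
    have hB := integral_sum_scaled768 μ hquad hx hM (isPer_Vf768 hD ψ hy₁)
      (continuous_Vf768 hD ψ hy₁) hWper hWc hϖ R (fun z => rfl) ν
    have hc₂ : Continuous (fun z => Vf768 ψ U (‖e (ϖ : K)‖ * y) (e (ϖ : K) * z)) :=
      (continuous_Vf768 hD ψ hy₂).comp (continuous_const.mul continuous_id)
    have hint : a₁ * ∫ q, W (Quotient.out q) * conj (chi768 e x M ν (Quotient.out q)) ∂μ
        + a₂ * ∫ q, Vf768 ψ U (‖e (ϖ : K)‖ * y) (e (ϖ : K) * Quotient.out q)
            * conj (chi768 e x M ν (Quotient.out q)) ∂μ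
        = s * ∫ q, Vf768 ψ U y (Quotient.out q)
            * conj (chi768 e x M ν (Quotient.out q)) ∂μ := by
      rw [← integral_const_mul, ← integral_const_mul, ← integral_const_mul, ← integral_add]
      · refine integral_congr_ae (Filter.Eventually.of_forall fun q => ?_)
        show a₁ * (W (Quotient.out q) * conj (chi768 e x M ν (Quotient.out q)))
            + a₂ * (Vf768 ψ U (‖e (ϖ : K)‖ * y) (e (ϖ : K) * Quotient.out q)
              * conj (chi768 e x M ν (Quotient.out q)))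
          = s * (Vf768 ψ U y (Quotient.out q) * conj (chi768 e x M ν (Quotient.out q)))
        linear_combination (conj (chi768 e x M ν (Quotient.out q))) * hH (Quotient.out q)
      · exact (integrable_dn_mul768 μ hquad hx hM hWper hWc ν).const_mul a₁
      · exact (integrable_dn_mul768 μ hquad hx hM hper₂ hc₂ ν).const_mul a₂
    rw [hA, mul_zero, add_zero, hB] at hint
    show s * (∫ q, Vf768 ψ U y (Quotient.out q)
          * conj (chi768 e x M ν (Quotient.out q)) ∂μ)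
        = a₁ * ((nrm v : ℝ) : ℂ) * ∫ q, Vf768 ψ U (y / ‖e (ϖ : K)‖) (Quotient.out q)
          * conj (chi768 e x M (ϖ * ν) (Quotient.out q)) ∂μ
    rw [← hint]
    have hn : ((nrm v : ℝ) : ℂ) = (R.card : ℂ) := by
      unfold nrm
      rw [hcard]
      push_cast
      rfl
    rw [hn]
    ring
  · -- non-vanishing
    by_contra hcon
    have hzero : ∀ ν : 𝓞 K, ν ≠ 0 →
        coef768 μ (psi768 e x M) (dn768 e M (Vf768 ψ U y₀)) ν = 0 := by
      intro ν hν
      by_contra h0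
      exact hcon ⟨ν, hν, y₀, hy₀, h0⟩
    have hper := isPer_Vf768 hD ψ hy₀
    have hc := continuous_dn768 hper (continuous_Vf768 hD ψ hy₀)
    have h1 := const_of_coef768 hfam μ ⟨dn768 e M (Vf768 ψ U y₀), hc⟩ hzero
      (QuotientAddGroup.mk z) (QuotientAddGroup.mk z')
    rw [ContinuousMap.coe_mk, dn_mk768 hper, dn_mk768 hper] at h1
    exact hV h1

example : Fermat.Agent.LT.T7.H37.HoroCoeffFC := horoCoeffFC768

end Fermat.Agent.LT.T7.H768

end
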