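import Mathlib
import Fermat.Agent.LT.T7.H584.NormLocSpec
import Fermat.Agent.LT.T7.H557.DescTriv

/-!
# Row LT, tower T7, field `matched`, part `nonnorm`, leaf N3 `SplitOrUniqueC584` (helper768)

OFF-MAIN.  Statement: `LT/T7/H584/NormLocSpec.lean` of helper584 (sha256 `4333e31f8a22e11b…`,
byte-identical copy).  Asset: `LT/T7/H557/DescTriv.lean` of helper557 (places over places).

`K'/K` Galois of prime degree `l`, `v` a finite place of `K`: `g · (e · f) = l`
(`Ideal.ncard_primesOver_mul_ramificationIdxIn_mul_inertiaDegIn`), so `g = 1` (exactly one place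
over `v`) or `g = l` and `e = f = 1` (a place `w` over `v` with `N w = N v` and
`v 𝒪_{K'} ⊄ w²`).
-/

set_option autoImplicit false
set_option linter.style.haveILetI false

open IsDedekindDomain NumberField

noncomputable section

namespace Fermat.Agent.LT.T7.H768

open Fermat.Agent.LT.T7

/-- If the (old-style) ramification index is `1`, then `p S ⊄ P²`. -/
theorem not_map_le_sq_of_ramIdx_eq_one_768 {R S : Type} [CommRing R] [CommRing S] [Algebra R S]
    (p : Ideal R) (P : Ideal S) (he : p.ramificationIdx' P = 1) :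
    ¬ Ideal.map (algebraMap R S) p ≤ P ^ 2 := by
  intro hle
  by_cases hb : BddAbove {n : ℕ | Ideal.map (algebraMap R S) p ≤ P ^ n}
  · have h2 : (2 : ℕ) ≤ sSup {n : ℕ | Ideal.map (algebraMap R S) p ≤ P ^ n} :=
      le_csSup hb hle
    have he' : sSup {n : ℕ | Ideal.map (algebraMap R S) p ≤ P ^ n} = 1 := he
    omega
  · have h0 : sSup {n : ℕ | Ideal.map (algebraMap R S) p ≤ P ^ n} = 0 :=
      Nat.sSup_of_not_bddAbove hb
    have he' : sSup {n : ℕ | Ideal.map (algebraMap R S) p ≤ P ^ n} = 1 := he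
    omega

/-- **LEAF N3 = SPLIT-OR-UNIQUE**, proved. -/
theorem splitOrUniqueC768 (K K' : Type) [Field K] [NumberField K] [Field K'] [NumberField K']
    [Algebra K K'] : H584.SplitOrUniqueC584 K K' := by
  intro l hcyc v
  haveI := hcyc.galois
  haveI := v.isPrime
  haveI : v.asIdeal.IsMaximal := v.isMaximal
  have h3 := Ideal.ncard_primesOver_mul_ramificationIdxIn_mul_inertiaDegIn v.asIdeal (𝓞 K')
    Gal(K'/K)
  rw [IsGalois.card_aut_eq_finrank, hcyc.degree] at h3
  have hg : (v.asIdeal.primesOver (𝓞 K')).ncard ∣ l := ⟨_, h3.symm⟩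
  obtain ⟨w, hw⟩ := H557.exists_placeOver_557 (K' := K') v
  rcases (Nat.dvd_prime hcyc.prime).1 hg with h1 | hl
  · -- exactly one place over `v`
    left
    obtain ⟨Q, hQ⟩ := Set.ncard_eq_one.1 h1
    have hmem : ∀ w'' : HeightOneSpectrum (𝓞 K'), PlaceOver K K' v w'' → w''.asIdeal = Q := by
      intro w'' hw''
      have hin : w''.asIdeal ∈ v.asIdeal.primesOver (𝓞 K') :=
        ⟨w''.isPrime, H557.placeOver_liesOver_557 hw''⟩
      rw [hQ] at hin
      exact hin
    exact ⟨w, hw, fun w' hw' => HeightOneSpectrum.ext ((hmem w' hw').trans (hmem w hw).symm)⟩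
  · -- `g = l`, hence `e = f = 1`
    right
    have hef : v.asIdeal.ramificationIdxIn (𝓞 K') * v.asIdeal.inertiaDegIn (𝓞 K') = 1 := by
      rw [hl] at h3
      exact Nat.eq_of_mul_eq_mul_left hcyc.prime.pos (by rw [h3, mul_one])
    have he : v.asIdeal.ramificationIdxIn (𝓞 K') = 1 := Nat.eq_one_of_mul_eq_one_right hef
    have hf : v.asIdeal.inertiaDegIn (𝓞 K') = 1 := Nat.eq_one_of_mul_eq_one_left hef
    haveI : w.asIdeal.LiesOver v.asIdeal := H557.placeOver_liesOver_557 hw
    haveI := w.isPrime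
    haveI : w.asIdeal.IsMaximal := w.isMaximal
    refine ⟨w, fun x => hw x _ rfl, ?_, ?_⟩
    · have hN := Ideal.absNorm_eq_pow_inertiaDeg'_of_liesOver w.asIdeal v.asIdeal v.isPrime
        v.ne_bot
      rw [Ideal.inertiaDeg'_eq_inertiaDeg v.asIdeal w.asIdeal,
        ← Ideal.inertiaDegIn_eq_inertiaDeg v.asIdeal w.asIdeal Gal(K'/K), hf, pow_one] at hN
      exact hN
    · have he' : v.asIdeal.ramificationIdx' w.asIdeal = 1 := by
        rw [Ideal.ramificationIdx'_eq_ramificationIdx v.asIdeal w.asIdeal v.ne_bot,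
          ← Ideal.ramificationIdxIn_eq_ramificationIdx v.asIdeal w.asIdeal Gal(K'/K), he]
      by_contra hcon
      apply not_map_le_sq_of_ramIdx_eq_one_768 v.asIdeal w.asIdeal he'
      rw [Ideal.map_le_iff_le_comap]
      intro x hx
      rw [Ideal.mem_comap]
      by_contra hx'
      exact hcon ⟨x, hx, hx'⟩

example (K K' : Type) [Field K] [NumberField K] [Field K'] [NumberField K'] [Algebra K K'] :
    H584.SplitOrUniqueC584 K K' := splitOrUniqueC768 K K'

end Fermat.Agent.LT.T7.H768
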